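/-
S56, node [H1-VAN], cell (F) [FIELD] (prefix `s56hf_`, Mathlib only).

`s56hf_main`: `X ⊆ k` an additive submonoid of a finite field, `L ⊆ kˣ` a multiplicative submonoid
with `L · X ⊆ X`, `x₀ ∈ X` nonzero and `#X ≤ 2 #L + 1`.  Then every map `A : k → k` which is
additive on `X` and `L`-equivariant on `X` is the multiplication by a constant on `X`.

Proof: `F :=` the subring generated by `L` is a subfield with `F · X ⊆ X` and `A (f x) = f A x`;
`#F ≥ #L + 1`; if some `x₁ ∈ X` is not in `F x₀` then `F × F → X`, `(f, g) ↦ f x₀ + g x₁` is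
injective, so `(#L + 1)² ≤ 2 #L + 1`, which is absurd.
-/
import Mathlib

set_option autoImplicit false

namespace Fermat.Agent.S56

variable {k : Type*} [Field k] [Fintype k]

/-- an additive submonoid of a finite field is closed under negation -/
theorem s56hf_neg_mem (X : Set k) (hX0 : (0:k) ∈ X) (hXadd : ∀ x ∈ X, ∀ y ∈ X, x + y ∈ X)
    (x : k) (hx : x ∈ X) : -x ∈ X := by
  have hn : ∀ n : ℕ, n • x ∈ X := by
    intro n
    induction n with
    | zero => simpa using hX0
    | succ n ih => rw [succ_nsmul]; exact hXadd _ ih _ hx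
  have h1 : 0 < addOrderOf x := addOrderOf_pos x
  have h2 : (addOrderOf x - 1) • x + x = 0 := by
    rw [← succ_nsmul, Nat.sub_add_cancel h1, addOrderOf_nsmul_eq_zero]
  have h3 : -x = (addOrderOf x - 1) • x := by
    rw [neg_eq_iff_add_eq_zero, add_comm]; exact h2
  rw [h3]; exact hn _

/-- inverses in a subring of a finite field -/
theorem s56hf_inv_mem (F : Subring k) (a : k) (ha : a ∈ F) : a⁻¹ ∈ F := by
  by_cases h0 : a = 0
  · subst h0; simp
  · have hq : 2 ≤ Fintype.card k := Fintype.one_lt_card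
    have h1 : a ^ (Fintype.card k - 1) = 1 := FiniteField.pow_card_sub_one_eq_one a h0
    have h2 : a⁻¹ = a ^ (Fintype.card k - 2) := by
      have h3 : a * a ^ (Fintype.card k - 2) = 1 := by
        rw [← pow_succ']
        have : Fintype.card k - 2 + 1 = Fintype.card k - 1 := by omega
        rw [this, h1]
      exact (eq_inv_of_mul_eq_one_right h3).symm
    rw [h2]; exact F.pow_mem ha _

theorem s56hf_main [DecidableEq k] (X L : Set k) (hX0 : (0:k) ∈ X)
    (hXadd : ∀ x ∈ X, ∀ y ∈ X, x + y ∈ X) (hL1 : (1:k) ∈ L)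
    (hLmul : ∀ a ∈ L, ∀ b ∈ L, a * b ∈ L) (hL0 : (0:k) ∉ L)
    (hLX : ∀ l ∈ L, ∀ x ∈ X, l * x ∈ X) (x₀ : k) (hx₀ : x₀ ≠ 0) (hx₀X : x₀ ∈ X)
    (hcount : Nat.card X ≤ 2 * Nat.card L + 1) (A : k → k)
    (hadd : ∀ x ∈ X, ∀ y ∈ X, A (x + y) = A x + A y)
    (hequiv : ∀ l ∈ L, ∀ x ∈ X, A (l * x) = l * A x) :
    ∃ c : k, ∀ x ∈ X, A x = c * x := by
  classical
  have _ := hLmul
  have hneg := s56hf_neg_mem X hX0 hXadd
  have hA0 : A 0 = 0 := by
    have := hadd 0 hX0 0 hX0
    rw [add_zero] at this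
    exact left_eq_add.mp this
  have hAneg : ∀ x ∈ X, A (-x) = - A x := by
    intro x hx
    have := hadd x hx (-x) (hneg x hx)
    rw [add_neg_cancel, hA0] at this
    exact (neg_eq_of_add_eq_zero_right this.symm).symm
  set F : Subring k := Subring.closure L with hF
  -- the key closure induction
  have hkey : ∀ f ∈ F, ∀ x ∈ X, f * x ∈ X ∧ A (f * x) = f * A x := by
    intro f hf
    induction hf using Subring.closure_induction with
    | mem l hl => exact fun x hx => ⟨hLX l hl x hx, hequiv l hl x hx⟩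
    | zero => intro x _; simp [hX0, hA0]
    | one => intro x hx; simp [hx]
    | add f g _ _ ihf ihg =>
      intro x hx
      obtain ⟨h1, h2⟩ := ihf x hx
      obtain ⟨h3, h4⟩ := ihg x hx
      rw [add_mul]
      exact ⟨hXadd _ h1 _ h3, by rw [hadd _ h1 _ h3, h2, h4, add_mul]⟩
    | neg f _ ihf =>
      intro x hx
      obtain ⟨h1, h2⟩ := ihf x hx
      rw [neg_mul]
      exact ⟨hneg _ h1, by rw [hAneg _ h1, h2, neg_mul]⟩
    | mul f g _ _ ihf ihg =>
      intro x hx
      obtain ⟨h3, h4⟩ := ihg x hx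
      obtain ⟨h1, h2⟩ := ihf (g * x) h3
      rw [mul_assoc]
      exact ⟨h1, by rw [h2, h4, mul_assoc]⟩
  -- counting `F`
  have hLF : L ⊆ (F : Set k) := Subring.subset_closure
  have hcardF : Nat.card L + 1 ≤ Nat.card F := by
    have h1 : Nat.card L = (L.toFinset).card := by
      rw [Nat.card_eq_fintype_card, Set.toFinset_card]
    have h2 : Nat.card F = ((F : Set k).toFinset).card := by
      rw [Set.toFinset_card]; exact Nat.card_eq_fintype_card
    rw [h1, h2]
    have h3 : insert (0:k) L.toFinset ⊆ (F : Set k).toFinset := by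
      intro a ha
      rw [Finset.mem_insert] at ha
      rw [Set.mem_toFinset]
      rcases ha with rfl | ha
      · exact F.zero_mem
      · exact hLF (Set.mem_toFinset.mp ha)
    have h4 := Finset.card_le_card h3
    rwa [Finset.card_insert_of_notMem (by rwa [Set.mem_toFinset])] at h4
  have hLpos : 1 ≤ Nat.card L := by
    rw [Nat.one_le_iff_ne_zero, Ne, Nat.card_eq_zero]
    push Not
    exact ⟨⟨⟨1, hL1⟩⟩, inferInstance⟩
  -- every element of `X` is in `F x₀`
  have hall : ∀ x₁ ∈ X, ∃ f ∈ F, x₁ = f * x₀ := by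
    intro x₁ hx₁
    by_contra hcon
    push Not at hcon
    let φ : F × F → X := fun fg =>
      ⟨fg.1 * x₀ + fg.2 * x₁,
        hXadd _ (hkey _ fg.1.2 x₀ hx₀X).1 _ (hkey _ fg.2.2 x₁ hx₁).1⟩
    have hφ : Function.Injective φ := by
      rintro ⟨⟨f, hf⟩, ⟨g, hg⟩⟩ ⟨⟨f', hf'⟩, ⟨g', hg'⟩⟩ h
      have h' : f * x₀ + g * x₁ = f' * x₀ + g' * x₁ := congrArg Subtype.val h
      by_cases hgg : g = g'
      · subst hgg
        have : f * x₀ = f' * x₀ := add_right_cancel h'
        have : f = f' := mul_right_cancel₀ hx₀ this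
        subst this; rfl
      · exfalso
        have hne : g' - g ≠ 0 := sub_ne_zero.mpr (Ne.symm hgg)
        refine hcon ((f - f') * (g' - g)⁻¹)
          (F.mul_mem (F.sub_mem hf hf') (s56hf_inv_mem F _ (F.sub_mem hg' hg))) ?_
        rw [mul_assoc, mul_comm _ x₀, ← mul_assoc, eq_mul_inv_iff_mul_eq₀ hne]
        linear_combination (-1 : k) * h'
    have h1 := Nat.card_le_card_of_injective φ hφ
    rw [Nat.card_prod] at h1
    have h2 : (Nat.card L + 1) * (Nat.card L + 1) ≤ 2 * Nat.card L + 1 :=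
      le_trans (Nat.mul_le_mul hcardF hcardF) (le_trans h1 hcount)
    nlinarith
  refine ⟨A x₀ / x₀, fun x hx => ?_⟩
  obtain ⟨f, hf, rfl⟩ := hall x hx
  rw [(hkey f hf x₀ hx₀X).2]
  field_simp

end Fermat.Agent.S56
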