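/-
S56 / node [H1-VAN] (helper10), the Borel computation.  Prefix `s56hv_`.  Mathlib only.

`B` a subgroup of the upper triangular group of `GL₂(k)`, `M = sl₂(k)` (trace-zero matrices) with
the twisted adjoint action `g · A = g A adj(g)` (`= det(g) g A g⁻¹`, i.e. `ad⁰ ⊗ det`).

`s56hv_borel` : under the two numerical conditions (γ) and (A') every 1-cocycle `B → M` is a
coboundary.
-/
import Mathlib

set_option autoImplicit false
set_option linter.style.haveILetI false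
set_option linter.unusedSectionVars false
set_option linter.unusedVariables false
set_option linter.unnecessarySeqFocus false

namespace Fermat.Agent.S56

open Matrix Matrix.GeneralLinearGroup

variable {k : Type*} [Field k]

/-- the twisted adjoint action `g · A = g A adj(g)` -/
def s56hv_act (g : GL (Fin 2) k) (A : Matrix (Fin 2) (Fin 2) k) : Matrix (Fin 2) (Fin 2) k :=
  (g : Matrix (Fin 2) (Fin 2) k) * A * adjugate (g : Matrix (Fin 2) (Fin 2) k)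

theorem s56hv_act_one (A : Matrix (Fin 2) (Fin 2) k) : s56hv_act 1 A = A := by
  simp [s56hv_act]

theorem s56hv_act_mul (g h : GL (Fin 2) k) (A : Matrix (Fin 2) (Fin 2) k) :
    s56hv_act (g * h) A = s56hv_act g (s56hv_act h A) := by
  simp only [s56hv_act, Units.val_mul, adjugate_mul_distrib, Matrix.mul_assoc]

theorem s56hv_act_add (g : GL (Fin 2) k) (A A' : Matrix (Fin 2) (Fin 2) k) :
    s56hv_act g (A + A') = s56hv_act g A + s56hv_act g A' := by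
  simp only [s56hv_act, Matrix.mul_add, Matrix.add_mul]

theorem s56hv_act_sub (g : GL (Fin 2) k) (A A' : Matrix (Fin 2) (Fin 2) k) :
    s56hv_act g (A - A') = s56hv_act g A - s56hv_act g A' := by
  simp only [s56hv_act, Matrix.mul_sub, Matrix.sub_mul]

theorem s56hv_act_zero (g : GL (Fin 2) k) : s56hv_act g (0 : Matrix (Fin 2) (Fin 2) k) = 0 := by
  simp [s56hv_act]

theorem s56hv_act_trace (g : GL (Fin 2) k) (A : Matrix (Fin 2) (Fin 2) k) :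
    (s56hv_act g A).trace = (g : Matrix (Fin 2) (Fin 2) k).det * A.trace := by
  rw [s56hv_act, Matrix.trace_mul_comm, ← Matrix.mul_assoc, adjugate_mul, Matrix.smul_mul,
    Matrix.one_mul, Matrix.trace_smul, smul_eq_mul]

/-! ### entries of the action of an upper triangular matrix on a trace-zero matrix -/

section Entries

variable (b : GL (Fin 2) k) (hb : b 1 0 = 0) (A : Matrix (Fin 2) (Fin 2) k)
  (hA : A 1 1 = -A 0 0)

include hb hA

theorem s56hv_act_10 : s56hv_act b A 1 0 = (b 1 1) ^ 2 * A 1 0 := by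
  simp only [s56hv_act, Matrix.mul_apply, Fin.sum_univ_two, adjugate_fin_two, Matrix.of_apply,
    Matrix.cons_val', Matrix.cons_val_zero, Matrix.cons_val_one, hb, hA]
  ring

theorem s56hv_act_00 :
    s56hv_act b A 0 0 = b 0 0 * b 1 1 * A 0 0 + b 1 1 * b 0 1 * A 1 0 := by
  simp only [s56hv_act, Matrix.mul_apply, Fin.sum_univ_two, adjugate_fin_two, Matrix.of_apply,
    Matrix.cons_val', Matrix.cons_val_zero, Matrix.cons_val_one, hb, hA]
  ring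

theorem s56hv_act_01 :
    s56hv_act b A 0 1 = (b 0 0) ^ 2 * A 0 1 - 2 * b 0 0 * b 0 1 * A 0 0 - (b 0 1) ^ 2 * A 1 0 := by
  simp only [s56hv_act, Matrix.mul_apply, Fin.sum_univ_two, adjugate_fin_two, Matrix.of_apply,
    Matrix.cons_val', Matrix.cons_val_zero, Matrix.cons_val_one, hb, hA]
  ring

theorem s56hv_act_11 : s56hv_act b A 1 1 = -s56hv_act b A 0 0 := by
  simp only [s56hv_act, Matrix.mul_apply, Fin.sum_univ_two, adjugate_fin_two, Matrix.of_apply,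
    Matrix.cons_val', Matrix.cons_val_zero, Matrix.cons_val_one, hb, hA]
  ring

end Entries

/-! ### upper triangular elements -/

theorem s56hv_u_00 (x : k) : (upperRightHom x : GL (Fin 2) k) 0 0 = 1 := by
  simp [upperRightHom]

theorem s56hv_u_01 (x : k) : (upperRightHom x : GL (Fin 2) k) 0 1 = x := by
  simp [upperRightHom]

theorem s56hv_u_10 (x : k) : (upperRightHom x : GL (Fin 2) k) 1 0 = 0 := by
  simp [upperRightHom]

theorem s56hv_u_11 (x : k) : (upperRightHom x : GL (Fin 2) k) 1 1 = 1 := by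
  simp [upperRightHom]

theorem s56hv_diag_ne_zero (b : GL (Fin 2) k) (hb : b 1 0 = 0) : b 0 0 ≠ 0 ∧ b 1 1 ≠ 0 := by
  have h := b.det_ne_zero
  rw [Matrix.det_fin_two, hb, mul_zero, sub_zero] at h
  exact ⟨left_ne_zero_of_mul h, right_ne_zero_of_mul h⟩

theorem s56hv_mul_10 (b c : GL (Fin 2) k) (hb : b 1 0 = 0) (hc : c 1 0 = 0) :
    (b * c) 1 0 = 0 := by
  simp [Units.val_mul, Matrix.mul_apply, Fin.sum_univ_two, hb, hc]

theorem s56hv_mul_00 (b c : GL (Fin 2) k) (hc : c 1 0 = 0) :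
    (b * c) 0 0 = b 0 0 * c 0 0 := by
  simp [Units.val_mul, Matrix.mul_apply, Fin.sum_univ_two, hc]

theorem s56hv_mul_11 (b c : GL (Fin 2) k) (hb : b 1 0 = 0) :
    (b * c) 1 1 = b 1 1 * c 1 1 := by
  simp [Units.val_mul, Matrix.mul_apply, Fin.sum_univ_two, hb]

theorem s56hv_pow_entries (b : GL (Fin 2) k) (hb : b 1 0 = 0) (n : ℕ) :
    (b ^ n) 1 0 = 0 ∧ (b ^ n) 0 0 = (b 0 0) ^ n ∧ (b ^ n) 1 1 = (b 1 1) ^ n := by
  induction n with
  | zero => simp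
  | succ n ih =>
    obtain ⟨h1, h2, h3⟩ := ih
    rw [pow_succ]
    refine ⟨s56hv_mul_10 _ _ h1 hb, ?_, ?_⟩
    · rw [s56hv_mul_00 _ _ hb, h2, pow_succ]
    · rw [s56hv_mul_11 _ _ h1, h3, pow_succ]

/-- an upper triangular matrix with diagonal `(1, 1)` is `u(x)` -/
theorem s56hv_eq_u (b : GL (Fin 2) k) (hb : b 1 0 = 0) (h0 : b 0 0 = 1) (h1 : b 1 1 = 1) :
    b = upperRightHom (b 0 1) := by
  apply Units.ext
  ext i j
  fin_cases i <;> fin_cases j <;> simp [upperRightHom, hb, h0, h1]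

/-- `b u(x) b⁻¹ = u(λ x)`, `λ = b₀₀ / b₁₁` -/
theorem s56hv_conj_u (b : GL (Fin 2) k) (hb : b 1 0 = 0) (x : k) :
    upperRightHom (b 0 0 / b 1 1 * x) * b = b * upperRightHom x := by
  obtain ⟨h0, h1⟩ := s56hv_diag_ne_zero b hb
  apply Units.ext
  ext i j
  fin_cases i <;> fin_cases j <;>
    simp [upperRightHom, Units.val_mul, Matrix.mul_apply, Fin.sum_univ_two, hb] <;>
    (try field_simp) <;> (try ring)

/-! ### cocycles on a group of upper triangular matrices -/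

section Borel

variable (B : Subgroup (GL (Fin 2) k)) (ψ : GL (Fin 2) k → Matrix (Fin 2) (Fin 2) k)
  (hB : ∀ b ∈ B, b 1 0 = 0)
  (htr : ∀ b ∈ B, (ψ b) 1 1 = -(ψ b) 0 0)
  (hψ : ∀ g ∈ B, ∀ h ∈ B, ψ (g * h) = ψ g + s56hv_act g (ψ h))

include hB htr hψ

theorem s56hv_psi_one : ψ 1 = 0 := by
  have h := hψ 1 B.one_mem 1 B.one_mem
  rw [mul_one, s56hv_act_one] at h
  exact left_eq_add.mp h

/-- the cocycle identity on the unipotent elements, in coordinates -/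
theorem s56hv_coc_u (x y : k) (hx : upperRightHom x ∈ B) (hy : upperRightHom y ∈ B) :
    ψ (upperRightHom (x + y)) 1 0 = ψ (upperRightHom x) 1 0 + ψ (upperRightHom y) 1 0 ∧
    ψ (upperRightHom (x + y)) 0 0 =
      ψ (upperRightHom x) 0 0 + ψ (upperRightHom y) 0 0 + x * ψ (upperRightHom y) 1 0 ∧
    ψ (upperRightHom (x + y)) 0 1 =
      ψ (upperRightHom x) 0 1 + ψ (upperRightHom y) 0 1 - 2 * x * ψ (upperRightHom y) 0 0
        - x ^ 2 * ψ (upperRightHom y) 1 0 := by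
  have h := hψ _ hx _ hy
  rw [← AddChar.map_add_eq_mul] at h
  have e10 := s56hv_act_10 (upperRightHom x) (s56hv_u_10 x) _ (htr _ hy)
  have e00 := s56hv_act_00 (upperRightHom x) (s56hv_u_10 x) _ (htr _ hy)
  have e01 := s56hv_act_01 (upperRightHom x) (s56hv_u_10 x) _ (htr _ hy)
  simp only [s56hv_u_00, s56hv_u_01, s56hv_u_11] at e10 e00 e01
  refine ⟨?_, ?_, ?_⟩
  · rw [h, Matrix.add_apply, e10]; ring
  · rw [h, Matrix.add_apply, e00]; ring
  · rw [h, Matrix.add_apply, e01]; ring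

/-- the conjugation identity `ψ(u(λx)) = b·ψ(u(x)) + ψ(b) - u(λx)·ψ(b)`, in coordinates -/
theorem s56hv_conj_psi (b : GL (Fin 2) k) (hb : b ∈ B) (x : k) (hx : upperRightHom x ∈ B) :
    upperRightHom (b 0 0 / b 1 1 * x) ∈ B ∧
    ψ (upperRightHom (b 0 0 / b 1 1 * x)) =
      s56hv_act b (ψ (upperRightHom x)) + ψ b
        - s56hv_act (upperRightHom (b 0 0 / b 1 1 * x)) (ψ b) := by
  have hc := s56hv_conj_u b (hB b hb) x
  have hmem : upperRightHom (b 0 0 / b 1 1 * x) ∈ B := by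
    have : upperRightHom (b 0 0 / b 1 1 * x) = b * upperRightHom x * b⁻¹ :=
      eq_mul_inv_of_mul_eq hc
    rw [this]
    exact B.mul_mem (B.mul_mem hb hx) (B.inv_mem hb)
  refine ⟨hmem, ?_⟩
  have h1 := hψ _ hmem _ hb
  have h2 := hψ _ hb _ hx
  rw [hc, h2] at h1
  rw [eq_sub_iff_add_eq, ← h1]
  abel

/-- shape of the cocycle on the unipotent elements: `C = γ x`, `B = γ x²/2 + β x` -/
theorem s56hv_shape (h2 : (2 : k) ≠ 0) (x₀ : k) (hx₀ : x₀ ≠ 0) (hu₀ : upperRightHom x₀ ∈ B) :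
    ∃ γ β : k, ∀ x, upperRightHom x ∈ B →
      ψ (upperRightHom x) 1 0 = γ * x ∧
      ψ (upperRightHom x) 0 0 = γ * x ^ 2 / 2 + β * x := by
  obtain ⟨γ, hγ⟩ : ∃ γ : k, γ * x₀ = ψ (upperRightHom x₀) 1 0 :=
    ⟨_ / x₀, div_mul_cancel₀ _ hx₀⟩
  have hC : ∀ x, upperRightHom x ∈ B → ψ (upperRightHom x) 1 0 = γ * x := by
    intro x hx
    obtain ⟨-, h1, -⟩ := s56hv_coc_u B ψ hB htr hψ x x₀ hx hu₀
    obtain ⟨-, h1', -⟩ := s56hv_coc_u B ψ hB htr hψ x₀ x hu₀ hx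
    rw [add_comm x₀ x] at h1'
    have e := h1.symm.trans h1'
    refine mul_left_cancel₀ hx₀ ?_
    linear_combination (-1 : k) * e - x * hγ
  obtain ⟨β, hβ⟩ : ∃ β : k, β * x₀ = ψ (upperRightHom x₀) 0 0 - γ * x₀ ^ 2 / 2 :=
    ⟨_ / x₀, div_mul_cancel₀ _ hx₀⟩
  refine ⟨γ, β, fun x hx => ⟨hC x hx, ?_⟩⟩
  obtain ⟨-, -, h1⟩ := s56hv_coc_u B ψ hB htr hψ x x₀ hx hu₀
  obtain ⟨-, -, h1'⟩ := s56hv_coc_u B ψ hB htr hψ x₀ x hu₀ hx
  rw [add_comm x₀ x] at h1'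
  rw [hC x hx] at h1'
  rw [hC x₀ hu₀] at h1
  have e := h1.symm.trans h1'
  have h2x : (2 : k) * x₀ ≠ 0 := mul_ne_zero h2 hx₀
  refine mul_left_cancel₀ h2x ?_
  have h22 : (2 : k) * (γ * x ^ 2 / 2) = γ * x ^ 2 := by field_simp
  have h23 : (2 : k) * (γ * x₀ ^ 2 / 2) = γ * x₀ ^ 2 := by field_simp
  linear_combination e - x₀ * h22 - 2 * x * hβ + x * h23

/-- the `f`-component of the cocycle on the unipotent elements vanishes: `γ = 0` -/
theorem s56hv_gamma_zero (h2 : (2 : k) ≠ 0) (x₀ : k) (hx₀ : x₀ ≠ 0)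
    (hu₀ : upperRightHom x₀ ∈ B)
    (hγ : (3 : k) = 0 ∨ ∃ b ∈ B, b 0 0 ≠ (b 1 1) ^ 3) (γ β : k)
    (hsh : ∀ x, upperRightHom x ∈ B →
      ψ (upperRightHom x) 1 0 = γ * x ∧ ψ (upperRightHom x) 0 0 = γ * x ^ 2 / 2 + β * x) :
    γ = 0 := by
  rcases hγ with h3 | ⟨b, hb, hne⟩
  · -- characteristic `3`
    have hu2 : upperRightHom (x₀ + x₀) ∈ B := by
      rw [AddChar.map_add_eq_mul]; exact B.mul_mem hu₀ hu₀
    obtain ⟨-, -, E1⟩ := s56hv_coc_u B ψ hB htr hψ x₀ x₀ hu₀ hu₀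
    obtain ⟨-, -, E2⟩ := s56hv_coc_u B ψ hB htr hψ x₀ (x₀ + x₀) hu₀ hu2
    have h0 : x₀ + (x₀ + x₀) = 0 := by linear_combination x₀ * h3
    rw [h0, AddChar.map_zero_eq_one, s56hv_psi_one B ψ hB htr hψ, Matrix.zero_apply] at E2
    obtain ⟨c1, b1⟩ := hsh x₀ hu₀
    obtain ⟨c2, b2⟩ := hsh (x₀ + x₀) hu2
    have b1' : 2 * ψ (upperRightHom x₀) 0 0 = γ * x₀ ^ 2 + 2 * β * x₀ := by
      rw [b1]; field_simp
    have b2' : 2 * ψ (upperRightHom (x₀ + x₀)) 0 0 = γ * (x₀ + x₀) ^ 2 + 2 * β * (x₀ + x₀) := by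
      rw [b2]; field_simp
    rw [c1] at E1
    rw [c2] at E2
    have key : 2 * (γ * x₀ ^ 3) = 0 := by
      linear_combination E2 + E1 - x₀ * b2' - x₀ * b1'
        + (ψ (upperRightHom x₀) 0 1 - 2 * γ * x₀ ^ 3 - 2 * β * x₀ ^ 2) * h3
    have := (mul_eq_zero.mp key).resolve_left h2
    exact (mul_eq_zero.mp this).resolve_right (pow_ne_zero 3 hx₀)
  · -- an element of `B` with `a ≠ d³`
    obtain ⟨h0, h1⟩ := s56hv_diag_ne_zero b (hB b hb)
    obtain ⟨hmem, hc⟩ := s56hv_conj_psi B ψ hB htr hψ b hb x₀ hu₀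
    have e := congrFun (congrFun hc 1) 0
    rw [Matrix.sub_apply, Matrix.add_apply,
      s56hv_act_10 b (hB b hb) _ (htr _ hu₀),
      s56hv_act_10 _ (s56hv_u_10 _) _ (htr _ hb), s56hv_u_11,
      (hsh _ hmem).1, (hsh _ hu₀).1] at e
    have e2 : γ * x₀ * (b 0 0 - (b 1 1) ^ 3) = 0 := by
      have : b 0 0 / b 1 1 * b 1 1 = b 0 0 := div_mul_cancel₀ _ h1
      linear_combination (b 1 1) * e - γ * x₀ * this
    have hne' : b 0 0 - (b 1 1) ^ 3 ≠ 0 := sub_ne_zero.mpr hne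
    have := (mul_eq_zero.mp e2).resolve_right hne'
    exact (mul_eq_zero.mp this).resolve_right hx₀

/-- with `γ = 0`: `A'(x) := A(x) + β x²` is additive on `X` -/
theorem s56hv_Aprime_add (β : k)
    (hsh : ∀ x, upperRightHom x ∈ B →
      ψ (upperRightHom x) 1 0 = 0 ∧ ψ (upperRightHom x) 0 0 = β * x)
    (x y : k) (hx : upperRightHom x ∈ B) (hy : upperRightHom y ∈ B) :
    ψ (upperRightHom (x + y)) 0 1 + β * (x + y) ^ 2 =
      (ψ (upperRightHom x) 0 1 + β * x ^ 2) + (ψ (upperRightHom y) 0 1 + β * y ^ 2) := by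
  obtain ⟨-, -, h⟩ := s56hv_coc_u B ψ hB htr hψ x y hx hy
  rw [h, (hsh y hy).1, (hsh y hy).2]
  ring

/-- with `γ = 0`: the transformation rule of `A'` under conjugation by `b ∈ B` -/
theorem s56hv_Aprime_conj (x₀ : k) (hx₀ : x₀ ≠ 0) (hu₀ : upperRightHom x₀ ∈ B) (β : k)
    (hsh : ∀ x, upperRightHom x ∈ B →
      ψ (upperRightHom x) 1 0 = 0 ∧ ψ (upperRightHom x) 0 0 = β * x)
    (b : GL (Fin 2) k) (hb : b ∈ B) (x : k) (hx : upperRightHom x ∈ B) :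
    upperRightHom (b 0 0 / b 1 1 * x) ∈ B ∧
    ψ (upperRightHom (b 0 0 / b 1 1 * x)) 0 1 + β * (b 0 0 / b 1 1 * x) ^ 2 =
      (b 0 0) ^ 2 * (ψ (upperRightHom x) 0 1 + β * x ^ 2)
        + (2 * (b 0 0 / b 1 1) * ψ b 0 0 - 2 * b 0 0 * b 0 1 * β) * x := by
  obtain ⟨h0, h1⟩ := s56hv_diag_ne_zero b (hB b hb)
  have hl : b 0 0 / b 1 1 * b 1 1 = b 0 0 := div_mul_cancel₀ _ h1
  obtain ⟨hmem₀, hc₀⟩ := s56hv_conj_psi B ψ hB htr hψ b hb x₀ hu₀
  have e₀ := congrFun (congrFun hc₀ 0) 0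
  rw [Matrix.sub_apply, Matrix.add_apply,
    s56hv_act_00 b (hB b hb) _ (htr _ hu₀),
    s56hv_act_00 _ (s56hv_u_10 _) _ (htr _ hb), s56hv_u_11, s56hv_u_00, s56hv_u_01,
    (hsh _ hmem₀).2, (hsh _ hu₀).1, (hsh _ hu₀).2] at e₀
  obtain ⟨hmem, hc⟩ := s56hv_conj_psi B ψ hB htr hψ b hb x hx
  refine ⟨hmem, ?_⟩
  have e := congrFun (congrFun hc 0) 1
  rw [Matrix.sub_apply, Matrix.add_apply,
    s56hv_act_01 b (hB b hb) _ (htr _ hx),
    s56hv_act_01 _ (s56hv_u_10 _) _ (htr _ hb), s56hv_u_00, s56hv_u_01,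
    (hsh _ hx).1, (hsh _ hx).2] at e
  rw [e]
  clear hc hc₀ hmem hmem₀ e
  generalize b 0 0 / b 1 1 = l at hl e₀ ⊢
  -- the `f`-coefficient of `ψ b`
  have hf : l * ψ b 1 0 = β * (b 0 0 * b 1 1 - l) := by
    refine mul_right_cancel₀ hx₀ ?_
    linear_combination e₀
  linear_combination (l * x ^ 2) * hf + (β * x ^ 2 * b 0 0) * hl

/-- with `γ = 0`: `A'` is equivariant for the elements of determinant one -/
theorem s56hv_Aprime_equiv (x₀ : k) (hx₀ : x₀ ≠ 0) (hu₀ : upperRightHom x₀ ∈ B) (β : k)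
    (hsh : ∀ x, upperRightHom x ∈ B →
      ψ (upperRightHom x) 1 0 = 0 ∧ ψ (upperRightHom x) 0 0 = β * x)
    (htors : ∀ b ∈ B, ∃ n : ℕ, (n : k) ≠ 0 ∧ (b 0 0) ^ n = 1 ∧ (b 1 1) ^ n = 1)
    (b : GL (Fin 2) k) (hb : b ∈ B) (hdet : b 0 0 * b 1 1 = 1) (x : k)
    (hx : upperRightHom x ∈ B) :
    upperRightHom ((b 0 0) ^ 2 * x) ∈ B ∧
    ψ (upperRightHom ((b 0 0) ^ 2 * x)) 0 1 + β * ((b 0 0) ^ 2 * x) ^ 2 =
      (b 0 0) ^ 2 * (ψ (upperRightHom x) 0 1 + β * x ^ 2) := by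
  obtain ⟨h0, h1⟩ := s56hv_diag_ne_zero b (hB b hb)
  have hl : b 0 0 / b 1 1 = (b 0 0) ^ 2 := by
    rw [div_eq_iff h1]
    linear_combination (-(b 0 0)) * hdet
  have rule := s56hv_Aprime_conj B ψ hB htr hψ x₀ hx₀ hu₀ β hsh b hb
  rw [hl] at rule
  set c₁ : k := 2 * (b 0 0) ^ 2 * ψ b 0 0 - 2 * b 0 0 * b 0 1 * β with hc₁
  set l : k := (b 0 0) ^ 2 with hl'
  -- iterate
  have iter : ∀ j : ℕ, upperRightHom (l ^ j * x₀) ∈ B ∧
      l * ((ψ (upperRightHom (l ^ j * x₀)) 0 1 + β * (l ^ j * x₀) ^ 2)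
        - l ^ j * (ψ (upperRightHom x₀) 0 1 + β * x₀ ^ 2)) = j * c₁ * l ^ j * x₀ := by
    intro j
    induction j with
    | zero =>
      rw [pow_zero, one_mul]
      exact ⟨hu₀, by push_cast; ring⟩
    | succ j ih =>
      obtain ⟨hm, he⟩ := ih
      obtain ⟨hm', he'⟩ := rule (l ^ j * x₀) hm
      have e1 : l ^ (j + 1) * x₀ = l * (l ^ j * x₀) := by ring
      rw [e1]
      refine ⟨hm', ?_⟩
      rw [he']
      push_cast
      linear_combination l * he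
  obtain ⟨n, hn, hn0, -⟩ := htors b hb
  have hln : l ^ n = 1 := by
    rw [hl', ← pow_mul, mul_comm, pow_mul, hn0, one_pow]
  obtain ⟨-, hn'⟩ := iter n
  rw [hln, one_mul, one_mul, sub_self, mul_zero, mul_one] at hn'
  have hc0 : c₁ = 0 := by
    have h' : (n : k) * c₁ * x₀ = 0 := hn'.symm
    have h'' := (mul_eq_zero.mp h').resolve_right hx₀
    exact (mul_eq_zero.mp h'').resolve_left hn
  obtain ⟨hm, he⟩ := rule x hx
  refine ⟨hm, ?_⟩
  rw [he, hc0, zero_mul, add_zero]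

omit hB htr hψ in
theorem s56hv_ext2 (A A' : Matrix (Fin 2) (Fin 2) k) (h00 : A 0 0 = A' 0 0) (h01 : A 0 1 = A' 0 1)
    (h10 : A 1 0 = A' 1 0) (h11 : A 1 1 = A' 1 1) : A = A' := by
  ext i j
  fin_cases i <;> fin_cases j
  · exact h00
  · exact h01
  · exact h10
  · exact h11

/-- a cocycle vanishing on the unipotent elements takes its values in `k · e` -/
theorem s56hv_values_in_e (h2 : (2 : k) ≠ 0) (x₀ : k) (hx₀ : x₀ ≠ 0)
    (hu₀ : upperRightHom x₀ ∈ B)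
    (hu : ∀ x, upperRightHom x ∈ B → ψ (upperRightHom x) = 0)
    (b : GL (Fin 2) k) (hb : b ∈ B) :
    ψ b 0 0 = 0 ∧ ψ b 1 0 = 0 ∧ ψ b 1 1 = 0 := by
  obtain ⟨h0, h1⟩ := s56hv_diag_ne_zero b (hB b hb)
  obtain ⟨hmem, hc⟩ := s56hv_conj_psi B ψ hB htr hψ b hb x₀ hu₀
  rw [hu _ hmem, hu _ hu₀, s56hv_act_zero, zero_add] at hc
  have hy : b 0 0 / b 1 1 * x₀ ≠ 0 := mul_ne_zero (div_ne_zero h0 h1) hx₀
  have e00 := congrFun (congrFun hc 0) 0
  have e01 := congrFun (congrFun hc 0) 1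
  rw [Matrix.zero_apply, Matrix.sub_apply,
    s56hv_act_00 _ (s56hv_u_10 _) _ (htr _ hb), s56hv_u_11, s56hv_u_00, s56hv_u_01] at e00
  rw [Matrix.zero_apply, Matrix.sub_apply,
    s56hv_act_01 _ (s56hv_u_10 _) _ (htr _ hb), s56hv_u_00, s56hv_u_01] at e01
  generalize b 0 0 / b 1 1 * x₀ = y at hy e00 e01
  have hf : ψ b 1 0 = 0 := by
    have : y * ψ b 1 0 = 0 := by linear_combination e00
    exact (mul_eq_zero.mp this).resolve_left hy
  have hh : ψ b 0 0 = 0 := by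
    rw [hf] at e01
    have : 2 * y * ψ b 0 0 = 0 := by linear_combination (-1 : k) * e01
    exact (mul_eq_zero.mp this).resolve_left (mul_ne_zero h2 hy)
  exact ⟨hh, hf, by rw [htr b hb, hh, neg_zero]⟩

/-- a cocycle vanishing on the unipotent elements is the coboundary of a multiple of `e` -/
theorem s56hv_of_vanish_unip (h2 : (2 : k) ≠ 0) (x₀ : k) (hx₀ : x₀ ≠ 0)
    (hu₀ : upperRightHom x₀ ∈ B)
    (hu : ∀ x, upperRightHom x ∈ B → ψ (upperRightHom x) = 0)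
    (htors : ∀ b ∈ B, ∃ n : ℕ, (n : k) ≠ 0 ∧ (b 0 0) ^ n = 1 ∧ (b 1 1) ^ n = 1) :
    ∃ m₁ : k, ∀ b ∈ B, ψ b = s56hv_act b !![0, m₁; 0, 0] - !![0, m₁; 0, 0] := by
  have hval := s56hv_values_in_e B ψ hB htr hψ h2 x₀ hx₀ hu₀ hu
  -- the cocycle rule for `φ = (ψ ·) 0 1`
  have hφ : ∀ g ∈ B, ∀ h ∈ B, ψ (g * h) 0 1 = ψ g 0 1 + (g 0 0) ^ 2 * ψ h 0 1 := by
    intro g hg h hh
    rw [hψ g hg h hh, Matrix.add_apply, s56hv_act_01 g (hB g hg) _ (htr h hh), (hval h hh).1,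
      (hval h hh).2.1]
    ring
  -- elements with diagonal `(1, 1)` are killed
  have hkill : ∀ c ∈ B, c 0 0 = 1 → c 1 1 = 1 → ψ c = 0 := by
    intro c hc h0 h1
    have e := s56hv_eq_u c (hB c hc) h0 h1
    rw [e]
    apply hu
    rw [← e]
    exact hc
  -- reduce to entries
  suffices h : ∃ m₁ : k, ∀ b ∈ B, ψ b 0 1 = m₁ * ((b 0 0) ^ 2 - 1) by
    obtain ⟨m₁, hm⟩ := h
    refine ⟨m₁, fun b hb => ?_⟩
    have hE : (!![0, m₁; 0, 0] : Matrix (Fin 2) (Fin 2) k) 1 1 =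
        -(!![0, m₁; 0, 0] : Matrix (Fin 2) (Fin 2) k) 0 0 := by simp
    apply s56hv_ext2
    · rw [Matrix.sub_apply, s56hv_act_00 b (hB b hb) _ hE, (hval b hb).1]; simp
    · rw [Matrix.sub_apply, s56hv_act_01 b (hB b hb) _ hE, hm b hb]; simp; ring
    · rw [Matrix.sub_apply, s56hv_act_10 b (hB b hb) _ hE, (hval b hb).2.1]; simp
    · rw [Matrix.sub_apply, s56hv_act_11 b (hB b hb) _ hE, s56hv_act_00 b (hB b hb) _ hE,
        (hval b hb).2.2]; simp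
  by_cases hcase : ∃ b₀ ∈ B, (b₀ 0 0) ^ 2 ≠ 1
  · obtain ⟨b₀, hb₀, hne⟩ := hcase
    have hne' : (b₀ 0 0) ^ 2 - 1 ≠ 0 := sub_ne_zero.mpr hne
    refine ⟨ψ b₀ 0 1 / ((b₀ 0 0) ^ 2 - 1), fun b hb => ?_⟩
    -- the commutator is unipotent
    have hcomm : ψ (b * b₀) 0 1 = ψ (b₀ * b) 0 1 := by
      obtain ⟨c, hc⟩ : ∃ c, c = (b₀ * b)⁻¹ * (b * b₀) := ⟨_, rfl⟩
      have hcB : c ∈ B := by
        rw [hc]; exact B.mul_mem (B.inv_mem (B.mul_mem hb₀ hb)) (B.mul_mem hb hb₀)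
      have hmul : (b₀ * b) * c = b * b₀ := by rw [hc, mul_inv_cancel_left]
      have e00 := s56hv_mul_00 (b₀ * b) c (hB c hcB)
      have e11 := s56hv_mul_11 (b₀ * b) c (hB _ (B.mul_mem hb₀ hb))
      rw [hmul, s56hv_mul_00 _ _ (hB _ hb₀), s56hv_mul_00 _ _ (hB _ hb)] at e00
      rw [hmul, s56hv_mul_11 _ _ (hB _ hb), s56hv_mul_11 _ _ (hB _ hb₀)] at e11
      obtain ⟨p0, p1⟩ := s56hv_diag_ne_zero b (hB b hb)
      obtain ⟨q0, q1⟩ := s56hv_diag_ne_zero b₀ (hB b₀ hb₀)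
      have c00 : c 0 0 = 1 := by
        refine mul_left_cancel₀ (mul_ne_zero q0 p0) ?_
        linear_combination (-1 : k) * e00
      have c11 : c 1 1 = 1 := by
        refine mul_left_cancel₀ (mul_ne_zero q1 p1) ?_
        linear_combination (-1 : k) * e11
      have := hφ (b₀ * b) (B.mul_mem hb₀ hb) c hcB
      rw [hmul, hkill c hcB c00 c11, Matrix.zero_apply, mul_zero, add_zero] at this
      exact this
    have e1 := hφ b hb b₀ hb₀
    have e2 := hφ b₀ hb₀ b hb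
    rw [div_mul_eq_mul_div, eq_div_iff hne']
    linear_combination e1 - e2 - hcomm
  · push Not at hcase
    refine ⟨0, fun b hb => ?_⟩
    rw [zero_mul]
    have hpow : ∀ j : ℕ, ψ (b ^ j) 0 1 = j * ψ b 0 1 := by
      intro j
      induction j with
      | zero =>
        rw [pow_zero, s56hv_psi_one B ψ hB htr hψ]; simp
      | succ j ih =>
        rw [pow_succ, hφ _ (B.pow_mem hb j) _ hb, ih, hcase _ (B.pow_mem hb j)]
        push_cast; ring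
    obtain ⟨n, hn, hn0, hn1⟩ := htors b hb
    obtain ⟨g10, g00, g11⟩ := s56hv_pow_entries b (hB b hb) n
    have := hkill (b ^ n) (B.pow_mem hb n) (by rw [g00, hn0]) (by rw [g11, hn1])
    have h' := hpow n
    rw [this, Matrix.zero_apply] at h'
    exact (mul_eq_zero.mp h'.symm).resolve_left hn

/-- **The Borel computation.**  Under the two numerical conditions (γ) and (A') every 1-cocycle
of `B` (a group of upper triangular matrices containing a nontrivial `u(x₀)`) with values in the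
trace-zero matrices, for the action `g · A = g A adj(g)`, is a coboundary. -/
theorem s56hv_borel (h2 : (2 : k) ≠ 0) (x₀ : k) (hx₀ : x₀ ≠ 0) (hu₀ : upperRightHom x₀ ∈ B)
    (htors : ∀ b ∈ B, ∃ n : ℕ, (n : k) ≠ 0 ∧ (b 0 0) ^ n = 1 ∧ (b 1 1) ^ n = 1)
    (hγ : (3 : k) = 0 ∨ ∃ b ∈ B, b 0 0 ≠ (b 1 1) ^ 3)
    (hA : ∀ A' : k → k,
      (∀ x y, upperRightHom x ∈ B → upperRightHom y ∈ B → A' (x + y) = A' x + A' y) →
      (∀ b ∈ B, b 0 0 * b 1 1 = 1 → ∀ x, upperRightHom x ∈ B →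
        A' ((b 0 0) ^ 2 * x) = (b 0 0) ^ 2 * A' x) →
      ∃ c : k, ∀ x, upperRightHom x ∈ B → A' x = c * x) :
    ∃ m : Matrix (Fin 2) (Fin 2) k, m 1 1 = -m 0 0 ∧ ∀ b ∈ B, ψ b = s56hv_act b m - m := by
  obtain ⟨γ, β, hsh⟩ := s56hv_shape B ψ hB htr hψ h2 x₀ hx₀ hu₀
  have hγ0 := s56hv_gamma_zero B ψ hB htr hψ h2 x₀ hx₀ hu₀ hγ γ β hsh
  have hsh0 : ∀ x, upperRightHom x ∈ B →
      ψ (upperRightHom x) 1 0 = 0 ∧ ψ (upperRightHom x) 0 0 = β * x := by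
    intro x hx
    obtain ⟨a, b⟩ := hsh x hx
    rw [hγ0] at a b
    exact ⟨by rw [a, zero_mul], by rw [b]; ring⟩
  obtain ⟨c, hc⟩ := hA (fun x => ψ (upperRightHom x) 0 1 + β * x ^ 2)
    (fun x y hx hy => s56hv_Aprime_add B ψ hB htr hψ β hsh0 x y hx hy)
    (fun b hb hdet x hx =>
      (s56hv_Aprime_equiv B ψ hB htr hψ x₀ hx₀ hu₀ β hsh0 htors b hb hdet x hx).2)
  obtain ⟨m₀, hm₀⟩ : ∃ m₀ : Matrix (Fin 2) (Fin 2) k, m₀ = !![-(c / 2), 0; β, c / 2] :=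
    ⟨_, rfl⟩
  have hm₀tr : m₀ 1 1 = -m₀ 0 0 := by rw [hm₀]; simp
  have m00 : m₀ 0 0 = -(c / 2) := by rw [hm₀]; simp
  have m01 : m₀ 0 1 = 0 := by rw [hm₀]; simp
  have m10 : m₀ 1 0 = β := by rw [hm₀]; simp
  have hm₀u : ∀ x, upperRightHom x ∈ B →
      ψ (upperRightHom x) = s56hv_act (upperRightHom x) m₀ - m₀ := by
    intro x hx
    obtain ⟨a, b⟩ := hsh0 x hx
    have hcx : ψ (upperRightHom x) 0 1 + β * x ^ 2 = c * x := hc x hx
    have h22 : (2 : k) * (c / 2) = c := by field_simp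
    apply s56hv_ext2
    · rw [Matrix.sub_apply, s56hv_act_00 _ (s56hv_u_10 x) _ hm₀tr, b, s56hv_u_00, s56hv_u_11,
        s56hv_u_01, m00, m10]
      ring
    · rw [Matrix.sub_apply, s56hv_act_01 _ (s56hv_u_10 x) _ hm₀tr, s56hv_u_00, s56hv_u_01,
        m00, m01, m10]
      linear_combination hcx - x * h22
    · rw [Matrix.sub_apply, s56hv_act_10 _ (s56hv_u_10 x) _ hm₀tr, a, s56hv_u_11, m10]
      ring
    · rw [Matrix.sub_apply, s56hv_act_11 _ (s56hv_u_10 x) _ hm₀tr,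
        s56hv_act_00 _ (s56hv_u_10 x) _ hm₀tr, htr _ hx, b, s56hv_u_00, s56hv_u_11,
        s56hv_u_01, hm₀tr, m00, m10]
      ring
  -- subtract the coboundary of `m₀`
  have htr' : ∀ b ∈ B, (ψ b - (s56hv_act b m₀ - m₀)) 1 1 = -(ψ b - (s56hv_act b m₀ - m₀)) 0 0 := by
    intro b hb
    rw [Matrix.sub_apply, Matrix.sub_apply, Matrix.sub_apply, Matrix.sub_apply,
      s56hv_act_11 b (hB b hb) _ hm₀tr, htr b hb, hm₀tr]
    ring
  have hψ' : ∀ g ∈ B, ∀ h ∈ B, ψ (g * h) - (s56hv_act (g * h) m₀ - m₀) =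
      (ψ g - (s56hv_act g m₀ - m₀)) + s56hv_act g (ψ h - (s56hv_act h m₀ - m₀)) := by
    intro g hg h hh
    rw [hψ g hg h hh, s56hv_act_mul, s56hv_act_sub, s56hv_act_sub]
    abel
  obtain ⟨m₁, hm₁⟩ := s56hv_of_vanish_unip B (fun b => ψ b - (s56hv_act b m₀ - m₀)) hB htr' hψ'
    h2 x₀ hx₀ hu₀ (fun x hx => sub_eq_zero.mpr (hm₀u x hx)) htors
  refine ⟨m₀ + !![0, m₁; 0, 0], ?_, fun b hb => ?_⟩
  · rw [Matrix.add_apply, Matrix.add_apply, hm₀tr]; simp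
  · have := hm₁ b hb
    rw [s56hv_act_add]
    rw [sub_eq_iff_eq_add] at this
    rw [this]
    abel

end Borel

end Fermat.Agent.S56
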