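/-
S56 / node [H1-VAN] (helper10), abstract cohomology.  Prefix `s56hv_`.  Mathlib only.

Raw 1-cocycles `ψ : G → M` for a representation `ρ : Representation k G M`
(`ψ (g * h) = ψ g + ρ g (ψ h)`), coboundaries `g ↦ ρ g m - m`.

* `s56hv_res_inj`   : if `H ≤ G` has finite index invertible in `k`, a cocycle on `G` whose
                      restriction to `H` is a coboundary is a coboundary (restriction to a subgroup
                      of index prime to the characteristic is injective on `H¹`);
* `s56hv_vanish_of_card` : a finite group of order invertible in `k` has no `H¹`.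
-/
import Mathlib

set_option autoImplicit false
set_option linter.style.haveILetI false

namespace Fermat.Agent.S56

open scoped BigOperators

variable {k G M : Type*} [Field k] [Group G] [AddCommGroup M] [Module k M]

theorem s56hv_cocycle_one (ρ : Representation k G M) (ψ : G → M)
    (hψ : ∀ g h, ψ (g * h) = ψ g + ρ g (ψ h)) : ψ 1 = 0 := by
  have h := hψ 1 1
  rw [mul_one, map_one, Module.End.one_apply] at h
  exact left_eq_add.mp h

/-- **restriction to a subgroup of index invertible in `k` is injective on `H¹`.** -/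
theorem s56hv_res_inj (ρ : Representation k G M) (H : Subgroup G) [H.FiniteIndex]
    (hn : (H.index : k) ≠ 0) (ψ : G → M) (hψ : ∀ g h, ψ (g * h) = ψ g + ρ g (ψ h))
    (hH : ∃ m, ∀ h ∈ H, ψ h = ρ h m - m) : ∃ m, ∀ g, ψ g = ρ g m - m := by
  classical
  obtain ⟨m, hm⟩ := hH
  -- the normalised cocycle
  set ψ' : G → M := fun g => ψ g - (ρ g m - m) with hψ'
  have hc : ∀ g h, ψ' (g * h) = ψ' g + ρ g (ψ' h) := by
    intro g h
    simp only [hψ', hψ g h, map_mul, Module.End.mul_apply, map_sub]
    abel
  have h0 : ∀ h ∈ H, ψ' h = 0 := fun h hh => by simp only [hψ', hm h hh, sub_self]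
  have hr : ∀ g, ∀ h ∈ H, ψ' (g * h) = ψ' g := fun g h hh => by
    rw [hc, h0 h hh, map_zero, add_zero]
  -- `ψ'` factors through `G ⧸ H`
  let F : G ⧸ H → M := Quotient.lift ψ' (fun a b hab => by
    have hab' : a⁻¹ * b ∈ H := QuotientGroup.leftRel_apply.mp hab
    have := hr a (a⁻¹ * b) hab'
    rw [mul_inv_cancel_left] at this
    exact this.symm)
  have hF : ∀ g : G, F (QuotientGroup.mk g) = ψ' g := fun g => rfl
  haveI : Fintype (G ⧸ H) := Subgroup.fintypeQuotientOfFiniteIndex
  set s : M := ∑ c : G ⧸ H, F c with hs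
  have hcard : Fintype.card (G ⧸ H) = H.index := by
    rw [Subgroup.index, Nat.card_eq_fintype_card]
  have key : ∀ g, (H.index : k) • ψ' g = s - ρ g s := by
    intro g
    have h1 : ρ g s = ∑ c : G ⧸ H, (F (g • c) - ψ' g) := by
      rw [hs, map_sum]
      refine Finset.sum_congr rfl fun c _ => ?_
      induction c using QuotientGroup.induction_on with
      | H x =>
        have : g • (QuotientGroup.mk x : G ⧸ H) = QuotientGroup.mk (g * x) := rfl
        rw [this, hF, hF, hc g x]
        abel
    have h2 : ∑ c : G ⧸ H, F (g • c) = s := by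
      rw [hs]
      exact Equiv.sum_comp (MulAction.toPerm g : G ⧸ H ≃ G ⧸ H) F
    rw [h1, Finset.sum_sub_distrib, h2, Finset.sum_const, Finset.card_univ, hcard,
      ← Nat.cast_smul_eq_nsmul k]
    abel
  refine ⟨m - (H.index : k)⁻¹ • s, fun g => ?_⟩
  have h3 : ψ' g = (H.index : k)⁻¹ • (s - ρ g s) := by
    rw [← key g, smul_smul, inv_mul_cancel₀ hn, one_smul]
  have h4 : ψ g = ψ' g + (ρ g m - m) := by simp only [hψ']; abel
  rw [h4, h3, map_sub, map_smul, smul_sub]
  abel

/-- a finite group of order invertible in `k` has no `H¹`. -/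
theorem s56hv_vanish_of_card [Finite G] (ρ : Representation k G M)
    (hn : (Nat.card G : k) ≠ 0) (ψ : G → M) (hψ : ∀ g h, ψ (g * h) = ψ g + ρ g (ψ h)) :
    ∃ m, ∀ g, ψ g = ρ g m - m := by
  haveI : (⊥ : Subgroup G).FiniteIndex := ⟨by
    rw [Subgroup.index_bot]; exact Nat.card_pos.ne'⟩
  refine s56hv_res_inj ρ ⊥ (by rw [Subgroup.index_bot]; exact hn) ψ hψ ⟨0, fun h hh => ?_⟩
  rw [Subgroup.mem_bot] at hh
  rw [hh, s56hv_cocycle_one ρ ψ hψ, map_zero, sub_zero]

end Fermat.Agent.S56
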