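/-
S56 / [H1-VAN] / (1) [COUNT], abstract half (helper12, prefix `s56hc_`).  Mathlib only.

A finite group `G` acts on a finite set `Y`; every element acting non-trivially has exactly one or
exactly two fixed points.  `z` = number of elements acting trivially, `nt y` = number of elements of the
stabiliser of `y` acting non-trivially (`= #G_y - z`), `par y` = number of elements with `y` as their
ONLY fixed point.  Double counting gives

  `∑ y, (nt y + par y) = 2 * #{g acting non-trivially}`                         (`s56hc_sum_r`).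

If `y₀` has `nt y₀ + z = z q τ`, `par y₀ = z (q - 1)` and an orbit with at least `q + 1` points, then
`q ≤ 2 τ + 1` (`s56hc_abs`): besides the orbit of `y₀` there is exactly one orbit with non-trivial
stabilisers, which gives `N q τ = e (2 + N (q - 2))`, and `N ∣ 2 e`.
-/
import Mathlib

set_option autoImplicit false
set_option linter.unusedSectionVars false
set_option linter.style.haveILetI false

namespace Fermat.Agent.S56

/-- the arithmetic endgame -/
theorem s56hc_arith (N q τ e : ℕ) (hq : 2 ≤ q) (hN : q + 1 ≤ N) (hτ : 0 < τ)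
    (h : N * q * τ = e * (2 + N * (q - 2))) : q ≤ 2 * τ + 1 := by
  obtain ⟨q', rfl⟩ : ∃ q', q = q' + 2 := ⟨q - 2, by omega⟩
  simp only [Nat.add_sub_cancel] at h
  have hNpos : 0 < N := by omega
  have hd2 : Nat.gcd N (2 + N * q') ∣ 2 := by
    have h1 : Nat.gcd N (2 + N * q') ∣ 2 + N * q' := Nat.gcd_dvd_right _ _
    have h2 : Nat.gcd N (2 + N * q') ∣ N * q' := (Nat.gcd_dvd_left _ _).mul_right _
    exact (Nat.dvd_add_left h2).mp h1
  have hNe : N ∣ e * Nat.gcd N (2 + N * q') := by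
    rw [← Nat.gcd_mul_left]
    refine Nat.dvd_gcd (Dvd.intro_left e rfl) ⟨(q' + 2) * τ, ?_⟩
    rw [← h]; ring
  have hN2e : N ∣ e * 2 := hNe.trans (Nat.mul_dvd_mul_left e hd2)
  have hepos : 0 < e := by
    rcases Nat.eq_zero_or_pos e with rfl | he
    · exfalso
      rw [zero_mul] at h
      have : 0 < N * (q' + 2) * τ := by positivity
      omega
    · exact he
  have hNle : N ≤ e * 2 := Nat.le_of_dvd (by omega) hN2e
  have h3 : N * (2 + N * q') ≤ N * (2 * ((q' + 2) * τ)) := by
    calc N * (2 + N * q') ≤ e * 2 * (2 + N * q') := Nat.mul_le_mul_right _ hNle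
      _ = 2 * (N * (q' + 2) * τ) := by rw [h]; ring
      _ = N * (2 * ((q' + 2) * τ)) := by ring
  have h4 : 2 + N * q' ≤ 2 * ((q' + 2) * τ) := Nat.le_of_mul_le_mul_left h3 hNpos
  have h5 : 2 + (q' + 3) * q' ≤ 2 * ((q' + 2) * τ) := by
    calc 2 + (q' + 3) * q' ≤ 2 + N * q' := by
          have : (q' + 3) * q' ≤ N * q' := Nat.mul_le_mul_right _ (by omega)
          omega
      _ ≤ _ := h4
  have h6 : (q' + 2) * (q' + 1) ≤ (q' + 2) * (2 * τ) := by
    calc (q' + 2) * (q' + 1) = 2 + (q' + 3) * q' := by ring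
      _ ≤ 2 * ((q' + 2) * τ) := h5
      _ = (q' + 2) * (2 * τ) := by ring
  have h7 : q' + 1 ≤ 2 * τ := Nat.le_of_mul_le_mul_left h6 (by omega)
  omega

section Abs

variable (G Y : Type*) [Group G] [Fintype G] [DecidableEq G] [MulAction G Y] [Fintype Y]
  [DecidableEq Y]

/-- number of fixed points of `g` -/
def s56hc_fc (g : G) : ℕ := (Finset.univ.filter (fun y : Y => g • y = y)).card

/-- `g` acts trivially -/
def s56hc_triv (g : G) : Prop := ∀ y : Y, g • y = y

instance s56hc_triv_dec : DecidablePred (s56hc_triv G Y) := fun g => by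
  unfold s56hc_triv; infer_instance

/-- number of elements acting trivially -/
def s56hc_z : ℕ := (Finset.univ.filter (fun g : G => s56hc_triv G Y g)).card

/-- number of elements acting non-trivially -/
def s56hc_nz : ℕ := (Finset.univ.filter (fun g : G => ¬ s56hc_triv G Y g)).card

/-- order of the stabiliser -/
def s56hc_st (y : Y) : ℕ := (Finset.univ.filter (fun g : G => g • y = y)).card

/-- number of elements of the stabiliser acting non-trivially -/
def s56hc_nt (y : Y) : ℕ :=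
  (Finset.univ.filter (fun g : G => g • y = y ∧ ¬ s56hc_triv G Y g)).card

/-- number of elements whose only fixed point is `y` -/
def s56hc_par (y : Y) : ℕ :=
  (Finset.univ.filter (fun g : G => g • y = y ∧ ¬ s56hc_triv G Y g ∧ s56hc_fc G Y g = 1)).card

theorem s56hc_z_add_nz : s56hc_z G Y + s56hc_nz G Y = Fintype.card G := by
  unfold s56hc_z s56hc_nz
  rw [Finset.card_filter_add_card_filter_not, Finset.card_univ]

theorem s56hc_st_eq (y : Y) : s56hc_st G Y y = s56hc_z G Y + s56hc_nt G Y y := by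
  unfold s56hc_st s56hc_z s56hc_nt
  rw [← Finset.card_filter_add_card_filter_not (p := fun g : G => s56hc_triv G Y g)
    (s := Finset.univ.filter (fun g : G => g • y = y))]
  congr 1
  · congr 1
    ext g
    simp only [Finset.mem_filter, Finset.mem_univ, true_and]
    exact ⟨fun h => h.2, fun h => ⟨h y, h⟩⟩
  · congr 1
    ext g
    simp only [Finset.mem_filter, Finset.mem_univ, true_and]

/-- **double counting** -/
theorem s56hc_sum_r
    (h12 : ∀ g : G, ¬ s56hc_triv G Y g → s56hc_fc G Y g = 1 ∨ s56hc_fc G Y g = 2) :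
    ∑ y : Y, (s56hc_nt G Y y + s56hc_par G Y y) = 2 * s56hc_nz G Y := by
  have h1 : ∀ y : Y, s56hc_nt G Y y + s56hc_par G Y y =
      ∑ g : G, ((if g • y = y ∧ ¬ s56hc_triv G Y g then 1 else 0) +
        (if g • y = y ∧ ¬ s56hc_triv G Y g ∧ s56hc_fc G Y g = 1 then 1 else 0)) := by
    intro y
    unfold s56hc_nt s56hc_par
    rw [Finset.card_filter, Finset.card_filter, ← Finset.sum_add_distrib]
  rw [Finset.sum_congr rfl (fun y _ => h1 y), Finset.sum_comm]
  have h2 : ∀ g : G, (∑ y : Y, ((if g • y = y ∧ ¬ s56hc_triv G Y g then 1 else 0) +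
        (if g • y = y ∧ ¬ s56hc_triv G Y g ∧ s56hc_fc G Y g = 1 then 1 else 0))) =
      if ¬ s56hc_triv G Y g then 2 else 0 := by
    intro g
    by_cases hg : s56hc_triv G Y g
    · simp [hg]
    · rw [if_pos hg]
      rcases h12 g hg with h | h
      · have : ∀ y : Y, ((if g • y = y ∧ ¬ s56hc_triv G Y g then 1 else 0) +
            (if g • y = y ∧ ¬ s56hc_triv G Y g ∧ s56hc_fc G Y g = 1 then 1 else 0)) =
            if g • y = y then 2 else 0 := by
          intro y
          by_cases hy : g • y = y <;> simp [hy, hg, h]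
        rw [Finset.sum_congr rfl (fun y _ => this y), ← Finset.sum_filter, Finset.sum_const,
          smul_eq_mul]
        have : (Finset.univ.filter (fun y : Y => g • y = y)).card = 1 := h
        rw [this]
      · have : ∀ y : Y, ((if g • y = y ∧ ¬ s56hc_triv G Y g then 1 else 0) +
            (if g • y = y ∧ ¬ s56hc_triv G Y g ∧ s56hc_fc G Y g = 1 then 1 else 0)) =
            if g • y = y then 1 else 0 := by
          intro y
          by_cases hy : g • y = y <;> simp [hy, hg, h]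
        rw [Finset.sum_congr rfl (fun y _ => this y), ← Finset.card_filter]
        exact h
  rw [Finset.sum_congr rfl (fun g _ => h2 g), ← Finset.sum_filter, Finset.sum_const, smul_eq_mul,
    mul_comm]
  rfl

/-! ### conjugation invariance -/

theorem s56hc_fix_conj (g h : G) (y : Y) : (h * g * h⁻¹) • (h • y) = h • y ↔ g • y = y := by
  rw [← mul_smul, mul_assoc, inv_mul_cancel, mul_one, mul_smul]
  exact ⟨fun e => (MulAction.injective h) e, fun e => by rw [e]⟩

theorem s56hc_fc_conj (g h : G) : s56hc_fc G Y (h * g * h⁻¹) = s56hc_fc G Y g := by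
  unfold s56hc_fc
  symm
  refine Finset.card_equiv (MulAction.toPerm h) (fun y => ?_)
  simp only [Finset.mem_filter, Finset.mem_univ, true_and, MulAction.toPerm_apply]
  exact (s56hc_fix_conj G Y g h y).symm

theorem s56hc_triv_conj (g h : G) : s56hc_triv G Y (h * g * h⁻¹) ↔ s56hc_triv G Y g := by
  constructor
  · intro H y
    exact (s56hc_fix_conj G Y g h y).1 (H (h • y))
  · intro H y
    have := (s56hc_fix_conj G Y g h (h⁻¹ • y)).2 (H _)
    rwa [smul_inv_smul] at this

theorem s56hc_st_smul (h : G) (y : Y) : s56hc_st G Y (h • y) = s56hc_st G Y y := by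
  unfold s56hc_st
  symm
  refine Finset.card_equiv (MulAut.conj h).toEquiv (fun g => ?_)
  simp only [Finset.mem_filter, Finset.mem_univ, true_and, MulEquiv.toEquiv_eq_coe,
    MulEquiv.coe_toEquiv, MulAut.conj_apply]
  exact (s56hc_fix_conj G Y g h y).symm

theorem s56hc_nt_smul (h : G) (y : Y) : s56hc_nt G Y (h • y) = s56hc_nt G Y y := by
  unfold s56hc_nt
  symm
  refine Finset.card_equiv (MulAut.conj h).toEquiv (fun g => ?_)
  simp only [Finset.mem_filter, Finset.mem_univ, true_and, MulEquiv.toEquiv_eq_coe,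
    MulEquiv.coe_toEquiv, MulAut.conj_apply]
  rw [s56hc_fix_conj, s56hc_triv_conj]

theorem s56hc_par_smul (h : G) (y : Y) : s56hc_par G Y (h • y) = s56hc_par G Y y := by
  unfold s56hc_par
  symm
  refine Finset.card_equiv (MulAut.conj h).toEquiv (fun g => ?_)
  simp only [Finset.mem_filter, Finset.mem_univ, true_and, MulEquiv.toEquiv_eq_coe,
    MulEquiv.coe_toEquiv, MulAut.conj_apply]
  rw [s56hc_fix_conj, s56hc_triv_conj, s56hc_fc_conj]

theorem s56hc_par_le_nt (y : Y) : s56hc_par G Y y ≤ s56hc_nt G Y y := by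
  unfold s56hc_par s56hc_nt
  refine Finset.card_le_card (fun g hg => ?_)
  simp only [Finset.mem_filter, Finset.mem_univ, true_and] at hg ⊢
  exact ⟨hg.1, hg.2.1⟩

/-! ### the subgroup of elements acting trivially -/

/-- the kernel of the action -/
def s56hc_K : Subgroup G where
  carrier := {g | s56hc_triv G Y g}
  one_mem' := fun y => one_smul G y
  mul_mem' := fun {a b} ha hb y => by rw [mul_smul, hb y, ha y]
  inv_mem' := fun {a} ha y => by
    have := ha y
    exact inv_smul_eq_iff.mpr this.symm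

theorem s56hc_mem_K (g : G) : g ∈ s56hc_K G Y ↔ s56hc_triv G Y g := Iff.rfl

theorem s56hc_z_eq : s56hc_z G Y = Nat.card (s56hc_K G Y) := by
  classical
  unfold s56hc_z
  rw [Nat.card_eq_fintype_card, Fintype.card_of_subtype]
  intro g
  simp only [Finset.mem_filter, Finset.mem_univ, true_and]
  exact Iff.rfl

theorem s56hc_st_eq_card (y : Y) : s56hc_st G Y y = Nat.card (MulAction.stabilizer G y) := by
  classical
  unfold s56hc_st
  rw [Nat.card_eq_fintype_card, Fintype.card_of_subtype]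
  intro g
  simp only [Finset.mem_filter, Finset.mem_univ, true_and, MulAction.mem_stabilizer_iff]

theorem s56hc_z_pos : 0 < s56hc_z G Y := by
  rw [s56hc_z_eq]
  exact Nat.card_pos

theorem s56hc_z_dvd_st (y : Y) : s56hc_z G Y ∣ s56hc_st G Y y := by
  rw [s56hc_z_eq, s56hc_st_eq_card]
  exact Subgroup.card_dvd_of_le (fun g hg => MulAction.mem_stabilizer_iff.mpr (hg y))

/-- a non-empty `par y` has at least `z` elements -/
theorem s56hc_z_le_par (y : Y) (h : 0 < s56hc_par G Y y) : s56hc_z G Y ≤ s56hc_par G Y y := by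
  unfold s56hc_par at h
  obtain ⟨g, hg⟩ := Finset.card_pos.mp h
  simp only [Finset.mem_filter, Finset.mem_univ, true_and] at hg
  unfold s56hc_z s56hc_par
  refine Finset.card_le_card_of_injOn (fun κ => g * κ) (fun κ hκ => ?_)
    (fun a _ b _ hab => mul_left_cancel hab)
  have hκ' : s56hc_triv G Y κ := by
    simpa only [Finset.coe_filter, Finset.mem_univ, true_and, Set.mem_ofPred_eq] using hκ
  have hact : ∀ x : Y, (g * κ) • x = g • x := fun x => by rw [mul_smul, hκ' x]
  simp only [Finset.coe_filter, Finset.mem_univ, true_and, Set.mem_ofPred_eq]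
  refine ⟨by rw [hact]; exact hg.1, fun H => hg.2.1 (fun x => by rw [← hact]; exact H x), ?_⟩
  have : s56hc_fc G Y (g * κ) = s56hc_fc G Y g := by
    unfold s56hc_fc
    congr 1
    ext x
    simp only [Finset.mem_filter, Finset.mem_univ, true_and, hact]
  rw [this]
  exact hg.2.2

/-! ### orbits -/

/-- the orbit as a finset -/
def s56hc_orb (y : Y) : Finset Y := Finset.univ.filter (fun x => ∃ g : G, g • y = x)

theorem s56hc_mem_orb (y x : Y) : x ∈ s56hc_orb G Y y ↔ ∃ g : G, g • y = x := by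
  unfold s56hc_orb
  simp only [Finset.mem_filter, Finset.mem_univ, true_and]

theorem s56hc_self_mem_orb (y : Y) : y ∈ s56hc_orb G Y y :=
  (s56hc_mem_orb G Y y y).2 ⟨1, one_smul G y⟩

theorem s56hc_orb_card_mul_st (y : Y) :
    (s56hc_orb G Y y).card * s56hc_st G Y y = Fintype.card G := by
  classical
  rw [s56hc_st_eq_card, Nat.card_eq_fintype_card,
    ← MulAction.card_orbit_mul_card_stabilizer_eq_card_group G y]
  congr 1
  rw [Fintype.card_of_subtype (s56hc_orb G Y y)]
  intro x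
  rw [s56hc_mem_orb]
  exact Iff.rfl

theorem s56hc_orb_disjoint (y x : Y) (hx : x ∉ s56hc_orb G Y y) :
    Disjoint (s56hc_orb G Y y) (s56hc_orb G Y x) := by
  rw [Finset.disjoint_left]
  intro w hw hw'
  rw [s56hc_mem_orb] at hw hw'
  obtain ⟨g, rfl⟩ := hw
  obtain ⟨g', hg'⟩ := hw'
  apply hx
  rw [s56hc_mem_orb]
  refine ⟨g'⁻¹ * g, ?_⟩
  rw [mul_smul, ← hg', inv_smul_smul]

theorem s56hc_orb_sum_const (f : Y → ℕ) (hf : ∀ (g : G) (x : Y), f (g • x) = f x) (y : Y) :
    ∑ x ∈ s56hc_orb G Y y, f x = (s56hc_orb G Y y).card * f y := by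
  refine Finset.sum_const_nat (fun x hx => ?_)
  rw [s56hc_mem_orb] at hx
  obtain ⟨g, rfl⟩ := hx
  exact hf g y

/-- the contribution of an orbit -/
theorem s56hc_orb_sum (y : Y) :
    ∑ x ∈ s56hc_orb G Y y, (s56hc_nt G Y x + s56hc_par G Y x) +
      (s56hc_orb G Y y).card * s56hc_z G Y =
      Fintype.card G + (s56hc_orb G Y y).card * s56hc_par G Y y := by
  rw [s56hc_orb_sum_const G Y (fun x => s56hc_nt G Y x + s56hc_par G Y x)
    (fun g x => by simp only [s56hc_nt_smul, s56hc_par_smul]) y,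
    ← s56hc_orb_card_mul_st G Y y, s56hc_st_eq G Y y]
  ring

/-- an orbit with non-trivial stabilisers has at most `#G / (2 z)` points -/
theorem s56hc_orb_two_mul_le (y : Y) (h : 0 < s56hc_nt G Y y) :
    2 * ((s56hc_orb G Y y).card * s56hc_z G Y) ≤ Fintype.card G := by
  rw [← s56hc_orb_card_mul_st G Y y]
  obtain ⟨e, he⟩ := s56hc_z_dvd_st G Y y
  have hst := s56hc_st_eq G Y y
  have hz := s56hc_z_pos G Y
  have he2 : 2 ≤ e := by
    by_contra hlt
    push Not at hlt
    interval_cases e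
    · rw [mul_zero] at he; omega
    · rw [mul_one] at he; omega
  rw [he]
  calc 2 * ((s56hc_orb G Y y).card * s56hc_z G Y)
      = (s56hc_orb G Y y).card * (s56hc_z G Y * 2) := by ring
    _ ≤ (s56hc_orb G Y y).card * (s56hc_z G Y * e) :=
        Nat.mul_le_mul_left _ (Nat.mul_le_mul_left _ he2)

/-! ### the main count -/

/-- **[COUNT], abstract form** -/
theorem s56hc_abs
    (h12 : ∀ g : G, ¬ s56hc_triv G Y g → s56hc_fc G Y g = 1 ∨ s56hc_fc G Y g = 2)
    (y₀ : Y) (q τ : ℕ) (hq : 2 ≤ q) (hτ : 0 < τ)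
    (hst : s56hc_st G Y y₀ = s56hc_z G Y * q * τ)
    (hpar : s56hc_par G Y y₀ = s56hc_z G Y * (q - 1))
    (hN : q + 1 ≤ (s56hc_orb G Y y₀).card) : q ≤ 2 * τ + 1 := by
  set z := s56hc_z G Y with hz
  set g₀ := Fintype.card G with hg₀
  set r : Y → ℕ := fun y => s56hc_nt G Y y + s56hc_par G Y y with hr
  set O₁ := s56hc_orb G Y y₀ with hO₁
  set N₁ := O₁.card with hN₁
  have hzpos : 0 < z := s56hc_z_pos G Y
  obtain ⟨q', rfl⟩ : ∃ q', q = q' + 2 := ⟨q - 2, by omega⟩
  have hpar' : s56hc_par G Y y₀ = z * (q' + 1) := by rw [hpar]; rfl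
  -- total
  have htot : ∑ y : Y, r y = 2 * s56hc_nz G Y := s56hc_sum_r G Y h12
  have hzn : z + s56hc_nz G Y = g₀ := s56hc_z_add_nz G Y
  -- the orbit of `y₀`
  have hg₀N : N₁ * (z * (q' + 2) * τ) = g₀ := by
    rw [← hst]; exact s56hc_orb_card_mul_st G Y y₀
  have hO₁sum : ∑ y ∈ O₁, r y + N₁ * z = g₀ + N₁ * (z * (q' + 1)) := by
    have := s56hc_orb_sum G Y y₀
    rw [hpar'] at this
    exact this
  -- (E1)
  have hsplit : ∑ y ∈ O₁, r y + ∑ y ∈ O₁ᶜ, r y = ∑ y : Y, r y := Finset.sum_add_sum_compl O₁ r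
  have hE1 : g₀ = 2 * z + N₁ * z * q' + ∑ y ∈ O₁ᶜ, r y := by
    have e1 : N₁ * (z * (q' + 1)) = N₁ * z + N₁ * z * q' := by ring
    rw [e1] at hO₁sum
    omega
  -- r vanishes where nt vanishes
  have hr0 : ∀ y : Y, s56hc_nt G Y y = 0 → r y = 0 := by
    intro y hy
    have := s56hc_par_le_nt G Y y
    simp only [hr]
    omega
  by_cases hcase : ∀ y ∈ O₁ᶜ, s56hc_nt G Y y = 0
  · -- no further orbit: impossible
    exfalso
    have hR : ∑ y ∈ O₁ᶜ, r y = 0 := Finset.sum_eq_zero (fun y hy => hr0 y (hcase y hy))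
    rw [hR, add_zero] at hE1
    -- N₁ z (q'+2) τ = 2 z + N₁ z q'
    have h1 : N₁ * (z * (q' + 2) * τ) = 2 * z + N₁ * z * q' := by rw [hg₀N]; exact hE1
    have h2 : N₁ * (z * (q' + 2)) ≤ N₁ * (z * (q' + 2) * τ) :=
      Nat.mul_le_mul_left _ (Nat.le_mul_of_pos_right _ hτ)
    have h3 : N₁ * (z * (q' + 2)) = N₁ * z * q' + 2 * (N₁ * z) := by ring
    have h4 : 2 * (N₁ * z) ≤ 2 * z := by omega
    have h5 : N₁ * z ≤ 1 * z := by omega
    have h6 : N₁ ≤ 1 := Nat.le_of_mul_le_mul_right h5 hzpos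
    omega
  · push Not at hcase
    obtain ⟨y₂, hy₂O, hy₂⟩ := hcase
    have hy₂pos : 0 < s56hc_nt G Y y₂ := Nat.pos_of_ne_zero hy₂
    have hy₂O' : y₂ ∉ O₁ := Finset.mem_compl.mp hy₂O
    set O₂ := s56hc_orb G Y y₂ with hO₂
    set N₂ := O₂.card with hN₂
    have hdisj : Disjoint O₁ O₂ := s56hc_orb_disjoint G Y y₀ y₂ hy₂O'
    have hO₂sub : O₂ ⊆ O₁ᶜ := by
      intro x hx
      rw [Finset.mem_compl]
      exact fun hx' => (Finset.disjoint_left.mp hdisj) hx' hx
    have hO₂sum : ∑ y ∈ O₂, r y + N₂ * z = g₀ + N₂ * s56hc_par G Y y₂ := s56hc_orb_sum G Y y₂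
    have hO₂le : 2 * (N₂ * z) ≤ g₀ := s56hc_orb_two_mul_le G Y y₂ hy₂pos
    have hsplit2 : ∑ y ∈ O₁ᶜ \ O₂, r y + ∑ y ∈ O₂, r y = ∑ y ∈ O₁ᶜ, r y :=
      Finset.sum_sdiff hO₂sub
    by_cases hcase2 : ∀ y ∈ O₁ᶜ \ O₂, s56hc_nt G Y y = 0
    · -- exactly one further orbit
      have hR' : ∑ y ∈ O₁ᶜ \ O₂, r y = 0 := Finset.sum_eq_zero (fun y hy => hr0 y (hcase2 y hy))
      rw [hR', zero_add] at hsplit2
      -- N₂ z = 2 z + N₁ z q' + N₂ par₂
      have h1 : N₂ * z = 2 * z + N₁ * z * q' + N₂ * s56hc_par G Y y₂ := by omega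
      have hpar₂ : s56hc_par G Y y₂ = 0 := by
        by_contra hne
        have hle := s56hc_z_le_par G Y y₂ (Nat.pos_of_ne_zero hne)
        have : N₂ * z ≤ N₂ * s56hc_par G Y y₂ := Nat.mul_le_mul_left _ hle
        omega
      rw [hpar₂, mul_zero, add_zero] at h1
      have h2 : N₂ = 2 + N₁ * q' := by
        have : N₂ * z = (2 + N₁ * q') * z := by rw [h1]; ring
        exact Nat.eq_of_mul_eq_mul_right hzpos this
      -- st y₂ = z e
      obtain ⟨e, he⟩ := s56hc_z_dvd_st G Y y₂
      have h3 : N₂ * (z * e) = g₀ := by rw [← he]; exact s56hc_orb_card_mul_st G Y y₂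
      have h4 : N₁ * (q' + 2) * τ = e * (2 + N₁ * (q' + 2 - 2)) := by
        have : (N₁ * (q' + 2) * τ) * z = (e * (2 + N₁ * q')) * z := by
          calc (N₁ * (q' + 2) * τ) * z = N₁ * (z * (q' + 2) * τ) := by ring
            _ = g₀ := hg₀N
            _ = N₂ * (z * e) := h3.symm
            _ = (e * (2 + N₁ * q')) * z := by rw [h2]; ring
        simpa only [Nat.add_sub_cancel] using Nat.eq_of_mul_eq_mul_right hzpos this
      exact s56hc_arith N₁ (q' + 2) τ e (by omega) hN hτ h4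
    · -- two further orbits: too many fixed points
      exfalso
      push Not at hcase2
      obtain ⟨y₃, hy₃O, hy₃⟩ := hcase2
      have hy₃pos : 0 < s56hc_nt G Y y₃ := Nat.pos_of_ne_zero hy₃
      rw [Finset.mem_sdiff, Finset.mem_compl] at hy₃O
      set O₃ := s56hc_orb G Y y₃ with hO₃
      set N₃ := O₃.card with hN₃
      have hdisj13 : Disjoint O₁ O₃ := s56hc_orb_disjoint G Y y₀ y₃ hy₃O.1
      have hdisj23 : Disjoint O₂ O₃ := s56hc_orb_disjoint G Y y₂ y₃ hy₃O.2
      have hO₃sub : O₃ ⊆ O₁ᶜ \ O₂ := by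
        intro x hx
        rw [Finset.mem_sdiff, Finset.mem_compl]
        exact ⟨fun hx' => (Finset.disjoint_left.mp hdisj13) hx' hx,
          fun hx' => (Finset.disjoint_left.mp hdisj23) hx' hx⟩
      have hO₃sum : ∑ y ∈ O₃, r y + N₃ * z = g₀ + N₃ * s56hc_par G Y y₃ := s56hc_orb_sum G Y y₃
      have hO₃le : 2 * (N₃ * z) ≤ g₀ := s56hc_orb_two_mul_le G Y y₃ hy₃pos
      have hle3 : ∑ y ∈ O₃, r y ≤ ∑ y ∈ O₁ᶜ \ O₂, r y :=
        Finset.sum_le_sum_of_subset hO₃sub
      omega

end Abs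

end Fermat.Agent.S56
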