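/-
S56 / [H1-VAN] / (1) [COUNT] (helper12, prefix `s56hc_`).  Mathlib + `CountAbs.lean`.

`k` a finite field of odd characteristic `p`, `G ≤ GL₂(k)` a subgroup of determinant-one matrices such
that every element of `G` fixes a point of `ℙ¹(k)` (all eigenvalues in `k`), `G` fixes no point of `ℙ¹(k)`
(irreducible), and `G` contains a non-trivial `u(x₀) = !![1, x₀; 0, 1]`.  With
`q = #{x | u(x) ∈ G}` and `τ = #{g 0 0 / g 1 1 | g ∈ G upper triangular}`:

      `q ≤ 2 τ + 1`                                                    (`s56hc_main`).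

Proof: orbit counting for `G` acting on `ℙ¹(k) = OnePoint k` (`s56hc_abs`): a non-scalar element with a
fixed point has exactly one or two fixed points.
-/
import Mathlib
import Fermat.Agent.S56.H1Van.CountAbs

set_option autoImplicit false
set_option linter.unusedSectionVars false
set_option linter.style.haveILetI false

namespace Fermat.Agent.S56

open Matrix OnePoint Matrix.GeneralLinearGroup

variable {k : Type*} [Field k] [DecidableEq k]

instance s56hc_decEqOnePoint : DecidableEq (OnePoint k) :=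
  inferInstanceAs (DecidableEq (Option k))

/-! ### Möbius action of upper triangular matrices -/

theorem s56hc_g11_ne_zero (g : GL (Fin 2) k) (hg : g 1 0 = 0) : g 1 1 ≠ 0 := by
  intro h
  have := g.det_ne_zero
  rw [Matrix.det_fin_two, hg, h] at this
  simp at this

theorem s56hc_g00_ne_zero (g : GL (Fin 2) k) (hg : g 1 0 = 0) : g 0 0 ≠ 0 := by
  intro h
  have := g.det_ne_zero
  rw [Matrix.det_fin_two, hg, h] at this
  simp at this

theorem s56hc_upper_smul_coe (g : GL (Fin 2) k) (hg : g 1 0 = 0) (t : k) :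
    g • (t : OnePoint k) = ((g 0 0 * t + g 0 1) / g 1 1 : k) := by
  rw [smul_some_eq_ite, hg, zero_mul, zero_add, if_neg (s56hc_g11_ne_zero g hg)]

theorem s56hc_upper_fix_coe (g : GL (Fin 2) k) (hg : g 1 0 = 0) (t : k) :
    g • (t : OnePoint k) = t ↔ g 0 1 = (g 1 1 - g 0 0) * t := by
  rw [s56hc_upper_smul_coe g hg, OnePoint.coe_eq_coe, div_eq_iff (s56hc_g11_ne_zero g hg)]
  constructor
  · intro h; linear_combination h
  · intro h; linear_combination h

/-- an element acts trivially on `ℙ¹(k)` iff it is scalar -/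
theorem s56hc_triv_iff (g : GL (Fin 2) k) :
    (∀ c : OnePoint k, g • c = c) ↔ g 1 0 = 0 ∧ g 0 1 = 0 ∧ g 0 0 = g 1 1 := by
  constructor
  · intro h
    have h10 : g 1 0 = 0 := smul_infty_eq_self_iff.mp (h ∞)
    have h0 := (s56hc_upper_fix_coe g h10 0).mp (h _)
    have h1 := (s56hc_upper_fix_coe g h10 1).mp (h _)
    rw [mul_zero] at h0
    rw [mul_one, h0] at h1
    exact ⟨h10, h0, (sub_eq_zero.mp h1.symm).symm⟩
  · rintro ⟨h10, h01, h00⟩ c
    cases c with
    | infty => exact smul_infty_eq_self_iff.mpr h10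
    | coe t =>
      rw [s56hc_upper_fix_coe g h10, h01, h00, sub_self, zero_mul]

variable [Fintype k]

theorem s56hc_fc_upper_eq (g : GL (Fin 2) k) (hg : g 1 0 = 0) (h : g 0 0 = g 1 1)
    (h01 : g 0 1 ≠ 0) : s56hc_fc (GL (Fin 2) k) (OnePoint k) g = 1 := by
  unfold s56hc_fc
  rw [Finset.card_eq_one]
  refine ⟨∞, ?_⟩
  ext c
  simp only [Finset.mem_filter, Finset.mem_univ, true_and, Finset.mem_singleton]
  cases c with
  | infty => simp [smul_infty_eq_self_iff, hg]
  | coe t =>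
    rw [s56hc_upper_fix_coe g hg, h, sub_self, zero_mul]
    simp [h01]

theorem s56hc_fc_upper_ne (g : GL (Fin 2) k) (hg : g 1 0 = 0) (h : g 0 0 ≠ g 1 1) :
    s56hc_fc (GL (Fin 2) k) (OnePoint k) g = 2 := by
  unfold s56hc_fc
  have hne : g 1 1 - g 0 0 ≠ 0 := sub_ne_zero.mpr (Ne.symm h)
  have : (Finset.univ.filter (fun c : OnePoint k => g • c = c)) =
      {∞, ((g 0 1 / (g 1 1 - g 0 0) : k) : OnePoint k)} := by
    ext c
    simp only [Finset.mem_filter, Finset.mem_univ, true_and, Finset.mem_insert,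
      Finset.mem_singleton]
    cases c with
    | infty => simp [smul_infty_eq_self_iff, hg]
    | coe t =>
      rw [s56hc_upper_fix_coe g hg, OnePoint.coe_eq_coe]
      simp only [OnePoint.coe_ne_infty, false_or]
      rw [eq_div_iff hne, eq_comm, mul_comm]
  rw [this, Finset.card_pair (OnePoint.infty_ne_coe _)]

/-- `GL₂(k)` moves every point to `∞` -/
theorem s56hc_exists_to_infty (c : OnePoint k) : ∃ h : GL (Fin 2) k, h • c = ∞ := by
  cases c with
  | infty => exact ⟨1, one_smul _ _⟩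
  | coe t =>
    refine ⟨Matrix.GeneralLinearGroup.mkOfDetNeZero !![0, 1; 1, -t] (by simp [Matrix.det_fin_two]),
      ?_⟩
    rw [smul_some_eq_ite, if_pos]
    simp [Matrix.GeneralLinearGroup.mkOfDetNeZero]

/-- a non-scalar element with a fixed point has one or two fixed points -/
theorem s56hc_fc_one_or_two (g : GL (Fin 2) k) (hfix : ∃ c : OnePoint k, g • c = c)
    (hnt : ¬ s56hc_triv (GL (Fin 2) k) (OnePoint k) g) :
    s56hc_fc (GL (Fin 2) k) (OnePoint k) g = 1 ∨ s56hc_fc (GL (Fin 2) k) (OnePoint k) g = 2 := by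
  obtain ⟨c, hc⟩ := hfix
  obtain ⟨h, hh⟩ := s56hc_exists_to_infty c
  rw [← s56hc_fc_conj (GL (Fin 2) k) (OnePoint k) g h]
  have hnt' : ¬ s56hc_triv (GL (Fin 2) k) (OnePoint k) (h * g * h⁻¹) := by
    rw [s56hc_triv_conj]; exact hnt
  have hfix' : (h * g * h⁻¹) • (∞ : OnePoint k) = ∞ := by
    rw [← hh]
    exact (s56hc_fix_conj (GL (Fin 2) k) (OnePoint k) g h c).mpr hc
  set g' := h * g * h⁻¹ with hg'
  have h10 : g' 1 0 = 0 := smul_infty_eq_self_iff.mp hfix'
  by_cases h00 : g' 0 0 = g' 1 1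
  · left
    refine s56hc_fc_upper_eq g' h10 h00 (fun h01 => hnt' ?_)
    exact (s56hc_triv_iff g').mpr ⟨h10, h01, h00⟩
  · right
    exact s56hc_fc_upper_ne g' h10 h00

/-- an element with an eigenvalue in `k` fixes a point of `ℙ¹(k)` -/
theorem s56hc_fix_of_root (g : GL (Fin 2) k) (α : k)
    (hα : (g : Matrix (Fin 2) (Fin 2) k).charpoly.IsRoot α) : ∃ c : OnePoint k, g • c = c := by
  by_cases h10 : g 1 0 = 0
  · exact ⟨∞, smul_infty_eq_self_iff.mpr h10⟩
  · refine ⟨(((α - g 1 1) / g 1 0 : k) : OnePoint k), ?_⟩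
    rw [← fixpointPolynomial_aeval_eq_zero_iff]
    rw [Polynomial.IsRoot.def, Matrix.charpoly_fin_two, Matrix.trace_fin_two,
      Matrix.det_fin_two] at hα
    simp only [Polynomial.eval_add, Polynomial.eval_sub, Polynomial.eval_pow, Polynomial.eval_X,
      Polynomial.eval_mul, Polynomial.eval_C] at hα
    simp only [fixpointPolynomial, map_sub, map_add, map_mul, Polynomial.aeval_C,
      Polynomial.aeval_X, map_pow, Algebra.algebraMap_self_apply]
    field_simp
    linear_combination hα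

theorem s56hc_fix_of_split (g : GL (Fin 2) k) (α β : k)
    (h : (g : Matrix (Fin 2) (Fin 2) k).charpoly =
      (Polynomial.X - Polynomial.C α) * (Polynomial.X - Polynomial.C β)) :
    ∃ c : OnePoint k, g • c = c := by
  refine s56hc_fix_of_root g α ?_
  rw [h, Polynomial.IsRoot.def, Polynomial.eval_mul, Polynomial.eval_sub, Polynomial.eval_X,
    Polynomial.eval_C, sub_self, zero_mul]

/-! ### the subgroup `G` -/

section Grp

variable (G : Subgroup (GL (Fin 2) k)) [DecidablePred (· ∈ G)]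

theorem s56hc_u_apply (x : k) : ((upperRightHom x : GL (Fin 2) k) : Matrix (Fin 2) (Fin 2) k) =
    !![1, x; 0, 1] := rfl

theorem s56hc_u_smul_coe (x t : k) : (upperRightHom x : GL (Fin 2) k) • (t : OnePoint k) =
    ((t + x : k) : OnePoint k) := by
  rw [s56hc_upper_smul_coe _ (by simp [s56hc_u_apply])]
  simp [s56hc_u_apply]

/-- **the key closure property** (here `p` is odd): an element `±u(y)` of `G` has `u(y) ∈ G` -/
theorem s56hc_key {p : ℕ} [Fact p.Prime] [CharP k p] (hp2 : p ≠ 2) (g : GL (Fin 2) k) (hgG : g ∈ G)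
    (hdet : Matrix.det (g : Matrix (Fin 2) (Fin 2) k) = 1)
    (h10 : g 1 0 = 0) (h00 : g 0 0 = g 1 1) : upperRightHom (g 0 1 / g 0 0) ∈ G := by
  have hsq : g 0 0 * g 0 0 = 1 := by
    rw [Matrix.det_fin_two, h10, mul_zero, sub_zero, ← h00] at hdet
    exact hdet
  have hcases : g 0 0 = 1 ∨ g 0 0 = -1 := mul_self_eq_one_iff.mp hsq
  rcases hcases with h1 | h1
  · have : upperRightHom (g 0 1 / g 0 0) = g := by
      apply Units.ext
      rw [s56hc_u_apply]
      ext i j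
      fin_cases i <;> fin_cases j <;> simp [h1, h10, ← h00]
    rw [this]; exact hgG
  · -- `g = -u(y)`, `g ^ p = -1`
    set y := g 0 1 / g 0 0 with hy
    have hg : g = -upperRightHom y := by
      apply Units.ext
      rw [Units.val_neg, s56hc_u_apply]
      ext i j
      fin_cases i <;> fin_cases j <;> simp [h1, h10, ← h00, hy, div_neg]
    have hodd : Odd p := (Fact.out : p.Prime).odd_of_ne_two hp2
    have hpow : g ^ p = -1 := by
      rw [hg, neg_pow, hodd.neg_one_pow, ← AddChar.map_nsmul_eq_pow, nsmul_eq_mul,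
        CharP.cast_eq_zero k p, zero_mul, AddChar.map_zero_eq_one, neg_mul, one_mul]
    have hneg : (-1 : GL (Fin 2) k) ∈ G := by rw [← hpow]; exact G.pow_mem hgG p
    have : upperRightHom y = (-1 : GL (Fin 2) k) * g := by rw [hg]; simp
    rw [this]
    exact G.mul_mem hneg hgG

/-- the stabiliser of `∞` in `G` -/
abbrev s56hc_B : Subgroup ↥G := MulAction.stabilizer ↥G (∞ : OnePoint k)

theorem s56hc_mem_B (g : ↥G) : g ∈ s56hc_B G ↔ (g : GL (Fin 2) k) 1 0 = 0 := by
  rw [MulAction.mem_stabilizer_iff]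
  exact smul_infty_eq_self_iff

/-- the character `b ↦ b 0 0 / b 1 1` of the stabiliser of `∞` -/
def s56hc_lam : ↥(s56hc_B G) →* kˣ where
  toFun b := Units.mk0 (((b : ↥G) : GL (Fin 2) k) 0 0 / ((b : ↥G) : GL (Fin 2) k) 1 1)
    (div_ne_zero (s56hc_g00_ne_zero _ ((s56hc_mem_B G _).1 b.2))
      (s56hc_g11_ne_zero _ ((s56hc_mem_B G _).1 b.2)))
  map_one' := by
    apply Units.ext
    simp
  map_mul' a b := by
    apply Units.ext
    have ha := (s56hc_mem_B G _).1 a.2
    have hb := (s56hc_mem_B G _).1 b.2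
    simp only [Units.val_mk0, Units.val_mul, Subgroup.coe_mul, Matrix.mul_apply,
      Fin.sum_univ_two, ha, hb, mul_zero, add_zero, zero_mul, zero_add]
    rw [mul_div_mul_comm]

theorem s56hc_lam_apply (b : ↥(s56hc_B G)) : ((s56hc_lam G b : kˣ) : k) =
    ((b : ↥G) : GL (Fin 2) k) 0 0 / ((b : ↥G) : GL (Fin 2) k) 1 1 := rfl

theorem s56hc_card_B : Nat.card (s56hc_B G) =
    Nat.card (s56hc_lam G).ker * Nat.card (s56hc_lam G).range := by
  rw [← Subgroup.index_ker, Subgroup.card_mul_index]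

theorem s56hc_card_range : Nat.card (s56hc_lam G).range =
    Nat.card {l : k // ∃ g ∈ G, (g : GL (Fin 2) k) 1 0 = 0 ∧ l = g 0 0 / g 1 1} := by
  refine Nat.card_congr (Equiv.ofBijective
    (fun u => ⟨((u : kˣ) : k), by
      obtain ⟨b, hb⟩ := u.2
      refine ⟨((b : ↥G) : GL (Fin 2) k), (b : ↥G).2, (s56hc_mem_B G _).1 b.2, ?_⟩
      rw [← hb]; rfl⟩) ⟨?_, ?_⟩)
  · intro u v huv
    apply Subtype.ext
    apply Units.ext
    exact congrArg Subtype.val huv
  · rintro ⟨l, g, hgG, h10, rfl⟩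
    refine ⟨⟨s56hc_lam G ⟨⟨g, hgG⟩, (s56hc_mem_B G _).2 h10⟩, ⟨_, rfl⟩⟩, ?_⟩
    apply Subtype.ext
    rfl

theorem s56hc_mem_ker (b : ↥(s56hc_B G)) : b ∈ (s56hc_lam G).ker ↔
    ((b : ↥G) : GL (Fin 2) k) 0 0 = ((b : ↥G) : GL (Fin 2) k) 1 1 := by
  rw [MonoidHom.mem_ker, Units.ext_iff, s56hc_lam_apply, Units.val_one,
    div_eq_one_iff_eq (s56hc_g11_ne_zero _ ((s56hc_mem_B G _).1 b.2))]

theorem s56hc_triv_G_iff (g : ↥G) : s56hc_triv ↥G (OnePoint k) g ↔
    (g : GL (Fin 2) k) 1 0 = 0 ∧ (g : GL (Fin 2) k) 0 1 = 0 ∧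
      (g : GL (Fin 2) k) 0 0 = (g : GL (Fin 2) k) 1 1 :=
  s56hc_triv_iff (g : GL (Fin 2) k)

theorem s56hc_mul_u_entries (g : GL (Fin 2) k) (x : k) :
    (g * upperRightHom x : GL (Fin 2) k) 0 0 = g 0 0 ∧
    (g * upperRightHom x : GL (Fin 2) k) 0 1 = g 0 0 * x + g 0 1 ∧
    (g * upperRightHom x : GL (Fin 2) k) 1 0 = g 1 0 ∧
    (g * upperRightHom x : GL (Fin 2) k) 1 1 = g 1 0 * x + g 1 1 := by
  simp [Units.val_mul, Matrix.mul_apply, Fin.sum_univ_two, s56hc_u_apply]

/-- the kernel of `λ` is `K × U` -/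
theorem s56hc_card_ker {p : ℕ} [Fact p.Prime] [CharP k p] (hp2 : p ≠ 2)
    (hdet : ∀ g ∈ G, Matrix.det (g : Matrix (Fin 2) (Fin 2) k) = 1) :
    Nat.card (s56hc_lam G).ker =
      Nat.card (s56hc_K ↥G (OnePoint k)) * Nat.card {x : k // upperRightHom x ∈ G} := by
  rw [← Nat.card_prod]
  symm
  refine Nat.card_congr (Equiv.ofBijective
    (fun κx : ↥(s56hc_K ↥G (OnePoint k)) × {x : k // upperRightHom x ∈ G} =>
      (⟨⟨(κx.1 : ↥G) * ⟨upperRightHom (κx.2 : k), κx.2.2⟩, by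
        rw [s56hc_mem_B]
        have hκ := (s56hc_triv_G_iff G _).1 κx.1.2
        have := (s56hc_mul_u_entries ((κx.1 : ↥G) : GL (Fin 2) k) (κx.2 : k)).2.2.1
        rw [Subgroup.coe_mul]
        exact this.trans hκ.1⟩, by
        rw [s56hc_mem_ker]
        have hκ := (s56hc_triv_G_iff G _).1 κx.1.2
        have h := s56hc_mul_u_entries ((κx.1 : ↥G) : GL (Fin 2) k) (κx.2 : k)
        show (((κx.1 : ↥G) * ⟨upperRightHom (κx.2 : k), κx.2.2⟩ : ↥G) : GL (Fin 2) k) 0 0 =
          (((κx.1 : ↥G) * ⟨upperRightHom (κx.2 : k), κx.2.2⟩ : ↥G) : GL (Fin 2) k) 1 1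
        rw [Subgroup.coe_mul]
        rw [h.1, h.2.2.2, hκ.1, zero_mul, zero_add]
        exact hκ.2.2⟩ : ↥(s56hc_lam G).ker)) ⟨?_, ?_⟩)
  · rintro ⟨κ, x⟩ ⟨κ', x'⟩ h
    have h1 : ((κ : ↥G) : GL (Fin 2) k) * upperRightHom (x : k) =
        ((κ' : ↥G) : GL (Fin 2) k) * upperRightHom (x' : k) := by
      have := congrArg (fun b : ↥(s56hc_lam G).ker => (((b : ↥(s56hc_B G)) : ↥G) : GL (Fin 2) k)) h
      simpa only [Subgroup.coe_mul] using this
    have hκ := (s56hc_triv_G_iff G _).1 κ.2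
    have hκ' := (s56hc_triv_G_iff G _).1 κ'.2
    have e1 := s56hc_mul_u_entries ((κ : ↥G) : GL (Fin 2) k) (x : k)
    have e2 := s56hc_mul_u_entries ((κ' : ↥G) : GL (Fin 2) k) (x' : k)
    rw [h1] at e1
    have h00 : ((κ : ↥G) : GL (Fin 2) k) 0 0 = ((κ' : ↥G) : GL (Fin 2) k) 0 0 :=
      e1.1.symm.trans e2.1
    have h01 := e1.2.1.symm.trans e2.2.1
    rw [hκ.2.1, hκ'.2.1, add_zero, add_zero, h00] at h01
    have hne : ((κ' : ↥G) : GL (Fin 2) k) 0 0 ≠ 0 := s56hc_g00_ne_zero _ hκ'.1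
    have hx : (x : k) = x' := mul_left_cancel₀ hne h01
    have hxx : x = x' := Subtype.ext hx
    subst hxx
    have hκκ : ((κ : ↥G) : GL (Fin 2) k) = ((κ' : ↥G) : GL (Fin 2) k) := mul_right_cancel h1
    have : κ = κ' := Subtype.ext (Subtype.ext hκκ)
    rw [this]
  · rintro ⟨⟨⟨b, hbG⟩, hbB⟩, hbk⟩
    have h10 : b 1 0 = 0 := (s56hc_mem_B G _).1 hbB
    have h00 : b 0 0 = b 1 1 := (s56hc_mem_ker G _).1 hbk
    have hu : upperRightHom (b 0 1 / b 0 0) ∈ G := s56hc_key G hp2 b hbG (hdet b hbG) h10 h00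
    have hne : b 0 0 ≠ 0 := s56hc_g00_ne_zero b h10
    set x := b 0 1 / b 0 0 with hx
    have hκG : b * (upperRightHom x)⁻¹ ∈ G := G.mul_mem hbG (G.inv_mem hu)
    have hinv : (upperRightHom x : GL (Fin 2) k)⁻¹ = upperRightHom (-x) :=
      (AddChar.map_neg_eq_inv _ _).symm
    have hent := s56hc_mul_u_entries b (-x)
    have hκtriv : s56hc_triv ↥G (OnePoint k) ⟨b * (upperRightHom x)⁻¹, hκG⟩ := by
      rw [s56hc_triv_G_iff]
      show (b * (upperRightHom x)⁻¹ : GL (Fin 2) k) 1 0 = 0 ∧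
        (b * (upperRightHom x)⁻¹ : GL (Fin 2) k) 0 1 = 0 ∧
        (b * (upperRightHom x)⁻¹ : GL (Fin 2) k) 0 0 = (b * (upperRightHom x)⁻¹ : GL (Fin 2) k) 1 1
      rw [hinv, hent.1, hent.2.1, hent.2.2.1, hent.2.2.2, h10, zero_mul, zero_add]
      refine ⟨rfl, ?_, h00⟩
      rw [hx]
      field_simp
      ring
    refine ⟨(⟨⟨b * (upperRightHom x)⁻¹, hκG⟩, hκtriv⟩, ⟨x, hu⟩), ?_⟩
    apply Subtype.ext
    apply Subtype.ext
    apply Subtype.ext
    show b * (upperRightHom x)⁻¹ * upperRightHom x = b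
    rw [inv_mul_cancel_right]

theorem s56hc_fc_G (g : ↥G) : s56hc_fc ↥G (OnePoint k) g =
    s56hc_fc (GL (Fin 2) k) (OnePoint k) (g : GL (Fin 2) k) := rfl

theorem s56hc_card_ker_eq : Nat.card (s56hc_lam G).ker =
    (Finset.univ.filter (fun g : ↥G => (g : GL (Fin 2) k) 1 0 = 0 ∧
      (g : GL (Fin 2) k) 0 0 = (g : GL (Fin 2) k) 1 1)).card := by
  rw [← Fintype.card_subtype, ← Nat.card_eq_fintype_card]
  exact Nat.card_congr
    { toFun := fun b => ⟨((b : ↥(s56hc_B G)) : ↥G), (s56hc_mem_B G _).1 b.1.2,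
        (s56hc_mem_ker G _).1 b.2⟩
      invFun := fun g => ⟨⟨g.1, (s56hc_mem_B G _).2 g.2.1⟩, (s56hc_mem_ker G _).2 g.2.2⟩
      left_inv := fun _ => rfl
      right_inv := fun _ => rfl }

/-- the elements whose only fixed point is `∞`, together with the scalars, form the kernel of `λ` -/
theorem s56hc_par_add_z : s56hc_par ↥G (OnePoint k) ∞ + s56hc_z ↥G (OnePoint k) =
    Nat.card (s56hc_lam G).ker := by
  rw [s56hc_card_ker_eq]
  unfold s56hc_par s56hc_z
  rw [← Finset.card_union_of_disjoint]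
  · congr 1
    ext g
    simp only [Finset.mem_union, Finset.mem_filter, Finset.mem_univ, true_and]
    constructor
    · rintro (⟨h1, h2, h3⟩ | h)
      · have h10 : (g : GL (Fin 2) k) 1 0 = 0 := smul_infty_eq_self_iff.mp h1
        refine ⟨h10, ?_⟩
        by_contra hne
        rw [s56hc_fc_G, s56hc_fc_upper_ne _ h10 hne] at h3
        omega
      · have := (s56hc_triv_G_iff G g).1 h
        exact ⟨this.1, this.2.2⟩
    · rintro ⟨h10, h00⟩
      by_cases h01 : (g : GL (Fin 2) k) 0 1 = 0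
      · right
        exact (s56hc_triv_G_iff G g).2 ⟨h10, h01, h00⟩
      · left
        refine ⟨smul_infty_eq_self_iff.mpr h10, fun h => h01 ((s56hc_triv_G_iff G g).1 h).2.1, ?_⟩
        rw [s56hc_fc_G]
        exact s56hc_fc_upper_eq _ h10 h00 h01
  · rw [Finset.disjoint_left]
    intro g hg hg'
    simp only [Finset.mem_filter, Finset.mem_univ, true_and] at hg hg'
    exact hg.2.1 hg'

/-- the orbit of `∞` has at least `q + 1` points -/
theorem s56hc_orb_ge (hirr : ∃ g ∈ G, g • (∞ : OnePoint k) ≠ ∞) :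
    Nat.card {x : k // upperRightHom x ∈ G} + 1 ≤ (s56hc_orb ↥G (OnePoint k) ∞).card := by
  classical
  obtain ⟨g₁, hg₁G, hg₁⟩ := hirr
  obtain ⟨t, ht⟩ : ∃ t : k, g₁ • (∞ : OnePoint k) = (t : OnePoint k) := by
    cases h : g₁ • (∞ : OnePoint k) with
    | infty => exact absurd h hg₁
    | coe t => exact ⟨t, rfl⟩
  rw [Nat.card_eq_fintype_card, ← Fintype.card_option, ← Finset.card_univ]
  refine Finset.card_le_card_of_injOn
    (fun o : Option {x : k // upperRightHom x ∈ G} =>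
      match o with
      | Option.none => (∞ : OnePoint k)
      | Option.some x => ((t + (x : k) : k) : OnePoint k)) ?_ ?_
  · intro o _
    rw [Finset.mem_coe, s56hc_mem_orb]
    cases o with
    | none => exact ⟨1, one_smul _ _⟩
    | some x =>
      refine ⟨⟨upperRightHom (x : k), x.2⟩ * ⟨g₁, hg₁G⟩, ?_⟩
      show (upperRightHom (x : k) * g₁ : GL (Fin 2) k) • (∞ : OnePoint k) = _
      rw [mul_smul, ht, s56hc_u_smul_coe]
  · intro a _ b _ hab
    cases a with
    | none =>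
      cases b with
      | none => rfl
      | some y => exact absurd hab (OnePoint.infty_ne_coe _)
    | some x =>
      cases b with
      | none => exact absurd hab (OnePoint.coe_ne_infty _)
      | some y =>
        have : t + (x : k) = t + (y : k) := OnePoint.coe_injective hab
        exact congrArg Option.some (Subtype.ext (add_left_cancel this))

end Grp

/-- **[COUNT]**: `q ≤ 2 τ + 1`. -/
theorem s56hc_main {p : ℕ} [Fact p.Prime] [CharP k p] (hp2 : p ≠ 2)
    (G : Subgroup (GL (Fin 2) k))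
    (hdet : ∀ g ∈ G, Matrix.det (g : Matrix (Fin 2) (Fin 2) k) = 1)
    (hfix : ∀ g ∈ G, ∃ c : OnePoint k, g • c = c)
    (hirr : ∀ c : OnePoint k, ∃ g ∈ G, g • c ≠ c)
    (x₀ : k) (hx₀ : x₀ ≠ 0) (hu : upperRightHom x₀ ∈ G) :
    Nat.card {x : k // upperRightHom x ∈ G} ≤
      2 * Nat.card {l : k // ∃ g ∈ G, (g : GL (Fin 2) k) 1 0 = 0 ∧ l = g 0 0 / g 1 1} + 1 := by
  classical
  set q := Nat.card {x : k // upperRightHom x ∈ G} with hq
  set τ := Nat.card {l : k // ∃ g ∈ G, (g : GL (Fin 2) k) 1 0 = 0 ∧ l = g 0 0 / g 1 1} with hτ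
  -- `2 ≤ q`
  have hq2 : 2 ≤ q := by
    haveI : Nontrivial {x : k // upperRightHom x ∈ G} :=
      ⟨⟨⟨0, by rw [AddChar.map_zero_eq_one]; exact G.one_mem⟩, ⟨x₀, hu⟩,
        fun h => hx₀ (congrArg Subtype.val h).symm⟩⟩
    exact Finite.one_lt_card_iff_nontrivial.mpr inferInstance
  -- `0 < τ`
  have hτpos : 0 < τ := by
    haveI : Nonempty {l : k // ∃ g ∈ G, (g : GL (Fin 2) k) 1 0 = 0 ∧ l = g 0 0 / g 1 1} :=
      ⟨⟨1, 1, G.one_mem, by simp, by simp⟩⟩
    exact Nat.card_pos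
  -- one or two fixed points
  have h12 : ∀ g : ↥G, ¬ s56hc_triv ↥G (OnePoint k) g →
      s56hc_fc ↥G (OnePoint k) g = 1 ∨ s56hc_fc ↥G (OnePoint k) g = 2 := fun g hg =>
    s56hc_fc_one_or_two (g : GL (Fin 2) k) (hfix g g.2) hg
  -- the stabiliser of `∞`
  have hz : s56hc_z ↥G (OnePoint k) = Nat.card (s56hc_K ↥G (OnePoint k)) := s56hc_z_eq _ _
  have hker := s56hc_card_ker G hp2 hdet
  have hst : s56hc_st ↥G (OnePoint k) ∞ = s56hc_z ↥G (OnePoint k) * q * τ := by
    rw [s56hc_st_eq_card, hz, ← hker, hτ, ← s56hc_card_range]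
    exact s56hc_card_B G
  have hpar : s56hc_par ↥G (OnePoint k) ∞ = s56hc_z ↥G (OnePoint k) * (q - 1) := by
    have := s56hc_par_add_z G
    rw [hker, ← hz] at this
    rw [Nat.mul_sub, mul_one]
    exact Nat.eq_sub_of_add_eq this
  have hN : q + 1 ≤ (s56hc_orb ↥G (OnePoint k) ∞).card := s56hc_orb_ge G (hirr ∞)
  exact s56hc_abs ↥G (OnePoint k) h12 ∞ q τ hq2 hτpos hst hpar hN

end Fermat.Agent.S56
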