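/-
S56 / node [H1-VAN] (helper10), the final assembly.  Prefix `s56hv_`.  Mathlib only.

`s56hv_main` : `k` a finite field of odd characteristic `p`, `Γ ≤ GL₂(k)` such that all elements have
their eigenvalues in `k`, `Γ` fixes no point of `ℙ¹(k)` (no stable line), and for `p = 5` some element
of `Γ` has determinant `≠ ±1`.  Then every 1-cocycle of `Γ` with values in the trace-zero matrices for
the action `g · A = g A adj(g)` (`= ad⁰ ⊗ det`) is a coboundary.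
-/
import Mathlib
import Fermat.Agent.S56.H1Van.Coh
import Fermat.Agent.S56.H1Van.Borel
import Fermat.Agent.S56.H1Van.Count

set_option autoImplicit false
set_option linter.style.haveILetI false
set_option linter.unusedSectionVars false
set_option linter.unusedVariables false
set_option linter.unnecessarySeqFocus false

namespace Fermat.Agent.S56

open Matrix OnePoint Matrix.GeneralLinearGroup Polynomial

variable {k : Type*} [Field k]

/-! ### generalities on the action -/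

theorem s56hv_act_smul (g : GL (Fin 2) k) (c : k) (A : Matrix (Fin 2) (Fin 2) k) :
    s56hv_act g (c • A) = c • s56hv_act g A := by
  simp only [s56hv_act, Matrix.mul_smul, Matrix.smul_mul]

theorem s56hv_act_id (g : GL (Fin 2) k) :
    s56hv_act g (1 : Matrix (Fin 2) (Fin 2) k) = (g : Matrix (Fin 2) (Fin 2) k).det • 1 := by
  rw [s56hv_act, Matrix.mul_one, Matrix.mul_adjugate]

/-- the representation of `Γ` on all `2 × 2` matrices -/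
def s56hv_rep (Γ : Subgroup (GL (Fin 2) k)) :
    Representation k ↥Γ (Matrix (Fin 2) (Fin 2) k) where
  toFun g :=
    { toFun := fun A => s56hv_act (g : GL (Fin 2) k) A
      map_add' := s56hv_act_add _
      map_smul' := fun c A => s56hv_act_smul _ c A }
  map_one' := by
    apply LinearMap.ext
    intro A
    exact s56hv_act_one A
  map_mul' g h := by
    apply LinearMap.ext
    intro A
    exact s56hv_act_mul _ _ A

theorem s56hv_rep_apply (Γ : Subgroup (GL (Fin 2) k)) (g : ↥Γ) (A : Matrix (Fin 2) (Fin 2) k) :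
    s56hv_rep Γ g A = s56hv_act (g : GL (Fin 2) k) A := rfl

/-- correcting the trace of a primitive -/
theorem s56hv_trace_fix (h2 : (2 : k) ≠ 0) (Γ : Subgroup (GL (Fin 2) k))
    (ψ : GL (Fin 2) k → Matrix (Fin 2) (Fin 2) k) (htr : ∀ g ∈ Γ, (ψ g).trace = 0)
    (m : Matrix (Fin 2) (Fin 2) k) (hm : ∀ g ∈ Γ, ψ g = s56hv_act g m - m) :
    ∃ m' : Matrix (Fin 2) (Fin 2) k, m'.trace = 0 ∧ ∀ g ∈ Γ, ψ g = s56hv_act g m' - m' := by
  obtain ⟨t, ht⟩ : ∃ t : k, 2 * t = m.trace := ⟨m.trace / 2, by field_simp⟩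
  refine ⟨m - t • 1, ?_, fun g hg => ?_⟩
  · rw [Matrix.trace_sub, Matrix.trace_smul, Matrix.trace_one, Fintype.card_fin, smul_eq_mul, ← ht]
    push_cast
    ring
  · have h1 := htr g hg
    rw [hm g hg, Matrix.trace_sub, s56hv_act_trace] at h1
    have h3 : t * ((g : Matrix (Fin 2) (Fin 2) k).det - 1) = 0 := by
      have : (2 : k) * (t * ((g : Matrix (Fin 2) (Fin 2) k).det - 1)) = 0 := by
        rw [← ht] at h1
        linear_combination h1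
      exact (mul_eq_zero.mp this).resolve_left h2
    rw [s56hv_act_sub, s56hv_act_smul, s56hv_act_id, hm g hg]
    have : t • ((g : Matrix (Fin 2) (Fin 2) k).det • (1 : Matrix (Fin 2) (Fin 2) k)) = t • 1 := by
      rw [smul_smul]
      congr 1
      linear_combination h3
    rw [this]
    abel

/-! ### conjugating the group -/

/-- `h Γ h⁻¹` -/
def s56hv_conjSub (Γ : Subgroup (GL (Fin 2) k)) (h : GL (Fin 2) k) : Subgroup (GL (Fin 2) k) where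
  carrier := {g | h⁻¹ * g * h ∈ Γ}
  one_mem' := by
    show h⁻¹ * 1 * h ∈ Γ
    rw [mul_one, inv_mul_cancel]
    exact Γ.one_mem
  mul_mem' := by
    intro a b ha hb
    show h⁻¹ * (a * b) * h ∈ Γ
    have : h⁻¹ * (a * b) * h = (h⁻¹ * a * h) * (h⁻¹ * b * h) := by group
    rw [this]
    exact Γ.mul_mem ha hb
  inv_mem' := by
    intro a ha
    show h⁻¹ * a⁻¹ * h ∈ Γ
    have : h⁻¹ * a⁻¹ * h = (h⁻¹ * a * h)⁻¹ := by group
    rw [this]
    exact Γ.inv_mem ha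

theorem s56hv_mem_conjSub (Γ : Subgroup (GL (Fin 2) k)) (h g : GL (Fin 2) k) :
    g ∈ s56hv_conjSub Γ h ↔ h⁻¹ * g * h ∈ Γ := Iff.rfl

/-- a cocycle on `Γ` is a coboundary as soon as its conjugate on `h Γ h⁻¹` is -/
theorem s56hv_conj_reduce (Γ : Subgroup (GL (Fin 2) k)) (h : GL (Fin 2) k)
    (ψ : GL (Fin 2) k → Matrix (Fin 2) (Fin 2) k)
    (m' : Matrix (Fin 2) (Fin 2) k)
    (hm' : ∀ g' ∈ s56hv_conjSub Γ h,
      s56hv_act h (ψ (h⁻¹ * g' * h)) = s56hv_act g' m' - m') :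
    ∀ g ∈ Γ, ψ g = s56hv_act g (s56hv_act h⁻¹ m') - s56hv_act h⁻¹ m' := by
  intro g hg
  have hg' : h * g * h⁻¹ ∈ s56hv_conjSub Γ h := by
    rw [s56hv_mem_conjSub]
    have : h⁻¹ * (h * g * h⁻¹) * h = g := by group
    rw [this]
    exact hg
  have e := hm' _ hg'
  have e1 : h⁻¹ * (h * g * h⁻¹) * h = g := by group
  rw [e1] at e
  have e2 := congrArg (s56hv_act h⁻¹) e
  rw [← s56hv_act_mul, inv_mul_cancel, s56hv_act_one, s56hv_act_sub, ← s56hv_act_mul] at e2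
  rw [e2, ← s56hv_act_mul]
  congr 2
  group

theorem s56hv_conj_cocycle (Γ : Subgroup (GL (Fin 2) k)) (h : GL (Fin 2) k)
    (ψ : GL (Fin 2) k → Matrix (Fin 2) (Fin 2) k)
    (hψ : ∀ g ∈ Γ, ∀ g' ∈ Γ, ψ (g * g') = ψ g + s56hv_act g (ψ g')) :
    ∀ a ∈ s56hv_conjSub Γ h, ∀ b ∈ s56hv_conjSub Γ h,
      s56hv_act h (ψ (h⁻¹ * (a * b) * h)) =
        s56hv_act h (ψ (h⁻¹ * a * h)) + s56hv_act a (s56hv_act h (ψ (h⁻¹ * b * h))) := by
  intro a ha b hb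
  have e : h⁻¹ * (a * b) * h = (h⁻¹ * a * h) * (h⁻¹ * b * h) := by group
  rw [e, hψ _ ha _ hb, s56hv_act_add, ← s56hv_act_mul, ← s56hv_act_mul]
  congr 2
  group

/-! ### finite fields -/

section Finite

variable [Fintype k] [DecidableEq k] {p : ℕ} [Fact p.Prime] [CharP k p]

omit [Fintype k] [DecidableEq k] in
theorem s56hv_two_ne_zero (hp2 : p ≠ 2) : (2 : k) ≠ 0 := by
  intro h
  have h' : ((2 : ℕ) : k) = 0 := by exact_mod_cast h
  rw [CharP.cast_eq_zero_iff k p 2] at h'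
  exact hp2 ((Nat.prime_dvd_prime_iff_eq (Fact.out : p.Prime) Nat.prime_two).mp h')

theorem s56hv_tors (b : GL (Fin 2) k) (hb : b 1 0 = 0) :
    ∃ n : ℕ, (n : k) ≠ 0 ∧ (b 0 0) ^ n = 1 ∧ (b 1 1) ^ n = 1 := by
  obtain ⟨h0, h1⟩ := s56hv_diag_ne_zero b hb
  refine ⟨Fintype.card k - 1, ?_, FiniteField.pow_card_sub_one_eq_one _ h0,
    FiniteField.pow_card_sub_one_eq_one _ h1⟩
  rw [Nat.cast_sub Fintype.card_pos, FiniteField.cast_card_eq_zero]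
  simp

omit [Fintype k] [DecidableEq k] in
theorem s56hv_det_u (x : k) :
    ((upperRightHom x : GL (Fin 2) k) : Matrix (Fin 2) (Fin 2) k).det = 1 := by
  rw [Matrix.det_fin_two, s56hv_u_00, s56hv_u_11, s56hv_u_10]
  ring

/-- the determinant-one part of `Γ` -/
def s56hv_G1 (Γ : Subgroup (GL (Fin 2) k)) : Subgroup (GL (Fin 2) k) :=
  Γ ⊓ (Matrix.GeneralLinearGroup.det : GL (Fin 2) k →* kˣ).ker

omit [Fintype k] in
theorem s56hv_mem_G1 (Γ : Subgroup (GL (Fin 2) k)) (g : GL (Fin 2) k) :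
    g ∈ s56hv_G1 Γ ↔ g ∈ Γ ∧ (g : Matrix (Fin 2) (Fin 2) k).det = 1 := by
  rw [s56hv_G1, Subgroup.mem_inf, MonoidHom.mem_ker, Units.ext_iff,
    Matrix.GeneralLinearGroup.val_det_apply, Units.val_one]

omit [Fintype k] in
theorem s56hv_G1_conj (Γ : Subgroup (GL (Fin 2) k)) (g : GL (Fin 2) k) (hg : g ∈ Γ)
    (h : GL (Fin 2) k) (hh : h ∈ s56hv_G1 Γ) : g * h * g⁻¹ ∈ s56hv_G1 Γ := by
  rw [s56hv_G1, Subgroup.mem_inf] at hh ⊢
  exact ⟨Γ.mul_mem (Γ.mul_mem hg hh.1) (Γ.inv_mem hg),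
    (MonoidHom.normal_ker _).conj_mem h hh.2 g⟩

omit [Fintype k] in
theorem s56hv_u_mem_G1 (Γ : Subgroup (GL (Fin 2) k)) (x : k) :
    upperRightHom x ∈ s56hv_G1 Γ ↔ upperRightHom x ∈ Γ := by
  rw [s56hv_mem_G1]
  exact ⟨fun h => h.1, fun h => ⟨h, s56hv_det_u x⟩⟩

/-- the upper triangular part of `Γ` -/
def s56hv_B (Γ : Subgroup (GL (Fin 2) k)) : Subgroup (GL (Fin 2) k) :=
  Γ ⊓ MulAction.stabilizer (GL (Fin 2) k) (∞ : OnePoint k)

omit [Fintype k] in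
theorem s56hv_mem_B (Γ : Subgroup (GL (Fin 2) k)) (g : GL (Fin 2) k) :
    g ∈ s56hv_B Γ ↔ g ∈ Γ ∧ g 1 0 = 0 := by
  rw [s56hv_B, Subgroup.mem_inf, MulAction.mem_stabilizer_iff, smul_infty_eq_self_iff]

omit [Fintype k] in
theorem s56hv_u_mem_B (Γ : Subgroup (GL (Fin 2) k)) (x : k) :
    upperRightHom x ∈ s56hv_B Γ ↔ upperRightHom x ∈ Γ := by
  rw [s56hv_mem_B]
  exact ⟨fun h => h.1, fun h => ⟨h, s56hv_u_10 x⟩⟩

/-- the only fixed point of a nontrivial `u(x₀)` is `∞` -/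
theorem s56hv_u_fix (x₀ : k) (hx₀ : x₀ ≠ 0) (c : OnePoint k)
    (hc : (upperRightHom x₀ : GL (Fin 2) k) • c = c) : c = ∞ := by
  cases c with
  | infty => rfl
  | coe t =>
    rw [s56hc_u_smul_coe] at hc
    have := OnePoint.coe_injective hc
    exact absurd (by linear_combination this) hx₀

/-- `Γ¹` is still irreducible -/
theorem s56hv_G1_irr (Γ : Subgroup (GL (Fin 2) k))
    (hirr : ∀ c : OnePoint k, ∃ g ∈ Γ, g • c ≠ c) (x₀ : k) (hx₀ : x₀ ≠ 0)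
    (hu₀ : upperRightHom x₀ ∈ Γ) :
    ∀ c : OnePoint k, ∃ g ∈ s56hv_G1 Γ, g • c ≠ c := by
  by_contra hcon
  push Not at hcon
  obtain ⟨c, hc⟩ := hcon
  have hu1 : upperRightHom x₀ ∈ s56hv_G1 Γ := (s56hv_u_mem_G1 Γ x₀).2 hu₀
  have hcinf : c = ∞ := s56hv_u_fix x₀ hx₀ c (hc _ hu1)
  subst hcinf
  obtain ⟨g, hg, hne⟩ := hirr ∞
  apply hne
  have hmem : g⁻¹ * upperRightHom x₀ * g⁻¹⁻¹ ∈ s56hv_G1 Γ :=
    s56hv_G1_conj Γ g⁻¹ (Γ.inv_mem hg) _ hu1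
  rw [inv_inv] at hmem
  have := hc _ hmem
  rw [mul_smul, mul_smul, inv_smul_eq_iff] at this
  exact s56hv_u_fix x₀ hx₀ _ this

end Finite

/-! ### the two numerical inputs of the Borel computation -/

section Inputs

variable [Fintype k] [DecidableEq k] {p : ℕ} [Fact p.Prime] [CharP k p]

/-- the statement of `Field.lean` (for one field `k`) -/
def s56hv_FieldStmt (k : Type*) [Field k] : Prop :=
  ∀ (X L : Set k), (0 : k) ∈ X → (∀ x ∈ X, ∀ y ∈ X, x + y ∈ X) → (1 : k) ∈ L →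
    (∀ a ∈ L, ∀ b ∈ L, a * b ∈ L) → (0 : k) ∉ L → (∀ l ∈ L, ∀ x ∈ X, l * x ∈ X) →
    ∀ x₀ : k, x₀ ≠ 0 → x₀ ∈ X → Nat.card X ≤ 2 * Nat.card L + 1 →
    ∀ A : k → k, (∀ x ∈ X, ∀ y ∈ X, A (x + y) = A x + A y) →
      (∀ l ∈ L, ∀ x ∈ X, A (l * x) = l * A x) → ∃ c : k, ∀ x ∈ X, A x = c * x

/-- the count for `Γ¹` -/
theorem s56hv_count (hp2 : p ≠ 2) (Γ : Subgroup (GL (Fin 2) k))
    (hsplit : ∀ g ∈ Γ, ∃ α β : k,
      (g : Matrix (Fin 2) (Fin 2) k).charpoly = (X - C α) * (X - C β))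
    (hirr : ∀ c : OnePoint k, ∃ g ∈ Γ, g • c ≠ c)
    (x₀ : k) (hx₀ : x₀ ≠ 0) (hu₀ : upperRightHom x₀ ∈ Γ) :
    Nat.card {x : k // upperRightHom x ∈ s56hv_G1 Γ} ≤
      2 * Nat.card {l : k // ∃ g ∈ s56hv_G1 Γ, (g : GL (Fin 2) k) 1 0 = 0 ∧ l = g 0 0 / g 1 1}
        + 1 := by
  refine s56hc_main hp2 (s56hv_G1 Γ) (fun g hg => ((s56hv_mem_G1 Γ g).1 hg).2) ?_
    (s56hv_G1_irr Γ hirr x₀ hx₀ hu₀) x₀ hx₀ ((s56hv_u_mem_G1 Γ x₀).2 hu₀)
  intro g hg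
  obtain ⟨α, β, h⟩ := hsplit g ((s56hv_mem_G1 Γ g).1 hg).1
  exact s56hc_fix_of_split g α β h

/-- the input (A') of the Borel computation -/
theorem s56hv_hA (hp2 : p ≠ 2) (hfield : s56hv_FieldStmt k) (Γ : Subgroup (GL (Fin 2) k))
    (hsplit : ∀ g ∈ Γ, ∃ α β : k,
      (g : Matrix (Fin 2) (Fin 2) k).charpoly = (X - C α) * (X - C β))
    (hirr : ∀ c : OnePoint k, ∃ g ∈ Γ, g • c ≠ c)
    (x₀ : k) (hx₀ : x₀ ≠ 0) (hu₀ : upperRightHom x₀ ∈ Γ)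
    (A' : k → k)
    (hadd : ∀ x y, upperRightHom x ∈ s56hv_B Γ → upperRightHom y ∈ s56hv_B Γ →
      A' (x + y) = A' x + A' y)
    (heq : ∀ b ∈ s56hv_B Γ, b 0 0 * b 1 1 = 1 → ∀ x, upperRightHom x ∈ s56hv_B Γ →
      A' ((b 0 0) ^ 2 * x) = (b 0 0) ^ 2 * A' x) :
    ∃ c : k, ∀ x, upperRightHom x ∈ s56hv_B Γ → A' x = c * x := by
  have hcount := s56hv_count hp2 Γ hsplit hirr x₀ hx₀ hu₀
  -- facts on the elements of `L`
  have hL : ∀ g ∈ s56hv_G1 Γ, (g : GL (Fin 2) k) 1 0 = 0 →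
      g ∈ s56hv_B Γ ∧ g 0 0 * g 1 1 = 1 ∧ g 0 0 / g 1 1 = (g 0 0) ^ 2 := by
    intro g hg h10
    obtain ⟨hgΓ, hdet⟩ := (s56hv_mem_G1 Γ g).1 hg
    rw [Matrix.det_fin_two, h10, mul_zero, sub_zero] at hdet
    obtain ⟨h0, h1⟩ := s56hv_diag_ne_zero g h10
    refine ⟨(s56hv_mem_B Γ g).2 ⟨hgΓ, h10⟩, hdet, ?_⟩
    rw [div_eq_iff h1]
    linear_combination (-(g 0 0)) * hdet
  obtain ⟨c, hc⟩ := hfield {x : k | upperRightHom x ∈ s56hv_G1 Γ}
    {l : k | ∃ g ∈ s56hv_G1 Γ, (g : GL (Fin 2) k) 1 0 = 0 ∧ l = g 0 0 / g 1 1}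
    (by
      show upperRightHom (0 : k) ∈ s56hv_G1 Γ
      rw [AddChar.map_zero_eq_one]; exact Subgroup.one_mem _)
    (by
      intro x hx y hy
      show upperRightHom (x + y) ∈ s56hv_G1 Γ
      rw [AddChar.map_add_eq_mul]; exact Subgroup.mul_mem _ hx hy)
    ⟨1, Subgroup.one_mem _, by simp, by simp⟩
    (by
      rintro a ⟨g, hg, g10, rfl⟩ b ⟨g', hg', g'10, rfl⟩
      refine ⟨g * g', Subgroup.mul_mem _ hg hg', s56hv_mul_10 g g' g10 g'10, ?_⟩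
      rw [s56hv_mul_00 g g' g'10, s56hv_mul_11 g g' g10, mul_div_mul_comm])
    (by
      rintro ⟨g, hg, g10, h0⟩
      obtain ⟨h0', h1'⟩ := s56hv_diag_ne_zero g g10
      exact div_ne_zero h0' h1' h0.symm)
    (by
      rintro l ⟨g, hg, g10, rfl⟩ x hx
      show upperRightHom (g 0 0 / g 1 1 * x) ∈ s56hv_G1 Γ
      have hc := s56hv_conj_u g g10 x
      have : upperRightHom (g 0 0 / g 1 1 * x) = g * upperRightHom x * g⁻¹ :=
        eq_mul_inv_of_mul_eq hc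
      rw [this]
      exact Subgroup.mul_mem _ (Subgroup.mul_mem _ hg hx) (Subgroup.inv_mem _ hg))
    x₀ hx₀ ((s56hv_u_mem_G1 Γ x₀).2 hu₀) hcount A'
    (by
      intro x hx y hy
      exact hadd x y ((s56hv_u_mem_B Γ x).2 ((s56hv_u_mem_G1 Γ x).1 hx))
        ((s56hv_u_mem_B Γ y).2 ((s56hv_u_mem_G1 Γ y).1 hy)))
    (by
      rintro l ⟨g, hg, g10, rfl⟩ x hx
      obtain ⟨hgB, hdet, hl⟩ := hL g hg g10
      rw [hl]
      exact heq g hgB hdet x ((s56hv_u_mem_B Γ x).2 ((s56hv_u_mem_G1 Γ x).1 hx)))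
  exact ⟨c, fun x hx => hc x ((s56hv_u_mem_G1 Γ x).2 ((s56hv_u_mem_B Γ x).1 hx))⟩

end Inputs

/-! ### the input (γ) -/

section Gamma

variable [Fintype k] [DecidableEq k] {p : ℕ} [Fact p.Prime] [CharP k p]

/-- `X = {x | u(x) ∈ Γ}` as an additive subgroup -/
def s56hv_X (Γ : Subgroup (GL (Fin 2) k)) : AddSubgroup k where
  carrier := {x | upperRightHom x ∈ Γ}
  zero_mem' := by
    show upperRightHom (0 : k) ∈ Γ
    rw [AddChar.map_zero_eq_one]; exact Γ.one_mem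
  add_mem' := by
    intro x y hx hy
    show upperRightHom (x + y) ∈ Γ
    rw [AddChar.map_add_eq_mul]; exact Γ.mul_mem hx hy
  neg_mem' := by
    intro x hx
    show upperRightHom (-x) ∈ Γ
    rw [AddChar.map_neg_eq_inv]; exact Γ.inv_mem hx

omit [Fintype k] [DecidableEq k] in
theorem s56hv_mem_X (Γ : Subgroup (GL (Fin 2) k)) (x : k) :
    x ∈ s56hv_X Γ ↔ upperRightHom x ∈ Γ := Iff.rfl

/-- the input (γ) of the Borel computation -/
theorem s56hv_hgamma (hp2 : p ≠ 2) (Γ : Subgroup (GL (Fin 2) k))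
    (hsplit : ∀ g ∈ Γ, ∃ α β : k,
      (g : Matrix (Fin 2) (Fin 2) k).charpoly = (X - C α) * (X - C β))
    (hirr : ∀ c : OnePoint k, ∃ g ∈ Γ, g • c ≠ c)
    (hdet5 : p = 5 → ∃ g ∈ Γ, ((g : Matrix (Fin 2) (Fin 2) k).det) ^ 2 ≠ 1)
    (x₀ : k) (hx₀ : x₀ ≠ 0) (hu₀ : upperRightHom x₀ ∈ Γ)
    (htrans : ∀ g ∈ Γ, ∃ h ∈ s56hv_G1 Γ, h • (∞ : OnePoint k) = g • (∞ : OnePoint k)) :
    (3 : k) = 0 ∨ ∃ b ∈ s56hv_B Γ, b 0 0 ≠ (b 1 1) ^ 3 := by
  by_cases hp3 : p = 3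
  · left
    have := CharP.cast_eq_zero k p
    rw [hp3] at this
    exact_mod_cast this
  right
  by_contra hcon
  push Not at hcon
  have hp5 : 5 ≤ p := Nat.Prime.five_le_of_ne_two_of_ne_three Fact.out hp2 hp3
  -- `L ⊆ {1, -1}`
  have hLsub : {l : k | ∃ g ∈ s56hv_G1 Γ, (g : GL (Fin 2) k) 1 0 = 0 ∧ l = g 0 0 / g 1 1} ⊆
      ({1, -1} : Set k) := by
    rintro l ⟨g, hg, g10, rfl⟩
    obtain ⟨hgΓ, hdet⟩ := (s56hv_mem_G1 Γ g).1 hg
    rw [Matrix.det_fin_two, g10, mul_zero, sub_zero] at hdet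
    obtain ⟨h0, h1⟩ := s56hv_diag_ne_zero g g10
    have hb := hcon g ((s56hv_mem_B Γ g).2 ⟨hgΓ, g10⟩)
    have hl : g 0 0 / g 1 1 = (g 1 1) ^ 2 := by
      rw [div_eq_iff h1, hb]; ring
    have h4 : (g 1 1) ^ 4 = 1 := by
      rw [hb] at hdet
      linear_combination hdet
    rw [hl]
    have : ((g 1 1) ^ 2 - 1) * ((g 1 1) ^ 2 + 1) = 0 := by linear_combination h4
    rcases mul_eq_zero.mp this with h | h
    · left; linear_combination h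
    · right; rw [Set.mem_singleton_iff]; linear_combination h
  have hLcard : Nat.card {l : k // ∃ g ∈ s56hv_G1 Γ, (g : GL (Fin 2) k) 1 0 = 0 ∧
      l = g 0 0 / g 1 1} ≤ 2 := by
    have h1 : Nat.card {l : k // ∃ g ∈ s56hv_G1 Γ, (g : GL (Fin 2) k) 1 0 = 0 ∧
        l = g 0 0 / g 1 1} = Set.ncard {l : k | ∃ g ∈ s56hv_G1 Γ, (g : GL (Fin 2) k) 1 0 = 0 ∧
        l = g 0 0 / g 1 1} := rfl
    rw [h1]
    refine (Set.ncard_le_ncard hLsub (Set.toFinite _)).trans ?_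
    refine (Set.ncard_insert_le _ _).trans ?_
    rw [Set.ncard_singleton]
  have hcount := s56hv_count hp2 Γ hsplit hirr x₀ hx₀ hu₀
  -- `X` has at most `5` elements
  have hXcard : Nat.card (s56hv_X Γ) ≤ 5 := by
    have h1 : Nat.card (s56hv_X Γ) = Nat.card {x : k // upperRightHom x ∈ s56hv_G1 Γ} := by
      refine Nat.card_congr (Equiv.subtypeEquivRight fun x => ?_)
      rw [s56hv_mem_X, s56hv_u_mem_G1]
    rw [h1]
    omega
  -- `X ⊇ ℤ x₀`, of order `p`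
  have hzm : AddSubgroup.zmultiples x₀ ≤ s56hv_X Γ := by
    rw [AddSubgroup.zmultiples_le]   -- placeholder name
    exact hu₀
  have hord : addOrderOf x₀ = p := by
    refine addOrderOf_eq_prime ?_ hx₀
    rw [nsmul_eq_mul, CharP.cast_eq_zero k p, zero_mul]
  have hzcard : Nat.card (AddSubgroup.zmultiples x₀) = p := by
    rw [Nat.card_zmultiples, hord]
  have hp_le : p ≤ 5 := by
    rw [← hzcard]
    exact (AddSubgroup.card_le_of_le hzm).trans hXcard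
  have hp5' : p = 5 := le_antisymm hp_le hp5
  have hXeq : AddSubgroup.zmultiples x₀ = s56hv_X Γ := by
    refine AddSubgroup.eq_of_le_of_card_ge hzm ?_
    rw [hzcard, hp5']
    exact hXcard
  -- the element with determinant `≠ ±1`
  obtain ⟨g, hg, hdetg⟩ := hdet5 hp5'
  obtain ⟨h, hh, hinf⟩ := htrans g hg
  obtain ⟨hhΓ, hdeth⟩ := (s56hv_mem_G1 Γ h).1 hh
  obtain ⟨b, hbdef⟩ : ∃ b, b = h⁻¹ * g := ⟨_, rfl⟩
  have hbΓ : b ∈ Γ := by rw [hbdef]; exact Γ.mul_mem (Γ.inv_mem hhΓ) hg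
  have hb10 : b 1 0 = 0 := by
    rw [← smul_infty_eq_self_iff, hbdef, mul_smul, ← hinf, inv_smul_smul]
  have hbB : b ∈ s56hv_B Γ := (s56hv_mem_B Γ b).2 ⟨hbΓ, hb10⟩
  have hdetb : (b : Matrix (Fin 2) (Fin 2) k).det = (g : Matrix (Fin 2) (Fin 2) k).det := by
    have e : h * b = g := by rw [hbdef, mul_inv_cancel_left]
    rw [← e, Units.val_mul, Matrix.det_mul, hdeth, one_mul]
  obtain ⟨h0, h1⟩ := s56hv_diag_ne_zero b hb10
  have hb3 := hcon b hbB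
  have hl : b 0 0 / b 1 1 = (b 1 1) ^ 2 := by
    rw [div_eq_iff h1, hb3]; ring
  -- `λ x₀ ∈ X = ℤ x₀`
  have hmem : b 0 0 / b 1 1 * x₀ ∈ s56hv_X Γ := by
    rw [s56hv_mem_X]
    have hc := s56hv_conj_u b hb10 x₀
    have : upperRightHom (b 0 0 / b 1 1 * x₀) = b * upperRightHom x₀ * b⁻¹ :=
      eq_mul_inv_of_mul_eq hc
    rw [this]
    exact Γ.mul_mem (Γ.mul_mem hbΓ hu₀) (Γ.inv_mem hbΓ)
  rw [← hXeq, AddSubgroup.mem_zmultiples_iff] at hmem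
  obtain ⟨j, hj⟩ := hmem
  have hlj : (b 1 1) ^ 2 = (j : k) := by
    rw [zsmul_eq_mul, hl] at hj
    exact (mul_right_cancel₀ hx₀ hj).symm
  -- Frobenius
  have hfrob : ((j : k)) ^ 5 = (j : k) := by
    have := map_intCast (frobenius k p) j
    rw [frobenius_def, hp5'] at this
    exact this
  have hl4 : ((b 1 1) ^ 2) ^ 4 = 1 := by
    have hne : (b 1 1) ^ 2 ≠ 0 := pow_ne_zero 2 h1
    rw [← hlj] at hfrob
    refine mul_left_cancel₀ hne ?_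
    linear_combination hfrob
  apply hdetg
  rw [← hdetb, Matrix.det_fin_two, hb10, mul_zero, sub_zero, hb3]
  linear_combination hl4

end Gamma

/-! ### the assembly -/

section Main

variable [Fintype k] [DecidableEq k] {p : ℕ} [Fact p.Prime] [CharP k p]

/-- the case where `Γ` contains a nontrivial `u(x₀)` -/
theorem s56hv_core (hp2 : p ≠ 2) (hfield : s56hv_FieldStmt k) (Γ : Subgroup (GL (Fin 2) k))
    (hsplit : ∀ g ∈ Γ, ∃ α β : k,
      (g : Matrix (Fin 2) (Fin 2) k).charpoly = (X - C α) * (X - C β))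
    (hirr : ∀ c : OnePoint k, ∃ g ∈ Γ, g • c ≠ c)
    (hdet5 : p = 5 → ∃ g ∈ Γ, ((g : Matrix (Fin 2) (Fin 2) k).det) ^ 2 ≠ 1)
    (x₀ : k) (hx₀ : x₀ ≠ 0) (hu₀ : upperRightHom x₀ ∈ Γ)
    (hidx : ((((MulAction.stabilizer (GL (Fin 2) k) (∞ : OnePoint k)).subgroupOf Γ).index : ℕ) : k)
      ≠ 0)
    (htrans : ∀ g ∈ Γ, ∃ h ∈ s56hv_G1 Γ, h • (∞ : OnePoint k) = g • (∞ : OnePoint k))
    (ψ : GL (Fin 2) k → Matrix (Fin 2) (Fin 2) k)
    (htr : ∀ g ∈ Γ, (ψ g).trace = 0)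
    (hψ : ∀ g ∈ Γ, ∀ h ∈ Γ, ψ (g * h) = ψ g + s56hv_act g (ψ h)) :
    ∃ m : Matrix (Fin 2) (Fin 2) k, ∀ g ∈ Γ, ψ g = s56hv_act g m - m := by
  have h2 : (2 : k) ≠ 0 := s56hv_two_ne_zero hp2
  have hBΓ : ∀ b ∈ s56hv_B Γ, b ∈ Γ := fun b hb => ((s56hv_mem_B Γ b).1 hb).1
  have hB : ∀ b ∈ s56hv_B Γ, b 1 0 = 0 := fun b hb => ((s56hv_mem_B Γ b).1 hb).2
  obtain ⟨m, -, hm⟩ := s56hv_borel (s56hv_B Γ) ψ hB
    (fun b hb => by
      have := htr b (hBΓ b hb)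
      rw [Matrix.trace_fin_two] at this
      linear_combination this)
    (fun g hg h hh => hψ g (hBΓ g hg) h (hBΓ h hh))
    h2 x₀ hx₀ ((s56hv_u_mem_B Γ x₀).2 hu₀)
    (fun b hb => s56hv_tors b (hB b hb))
    (s56hv_hgamma hp2 Γ hsplit hirr hdet5 x₀ hx₀ hu₀ htrans)
    (fun A' hadd heq => s56hv_hA hp2 hfield Γ hsplit hirr x₀ hx₀ hu₀ A' hadd heq)
  haveI : Finite ↥Γ := inferInstance
  obtain ⟨m', hm'⟩ := s56hv_res_inj (s56hv_rep Γ)
    ((MulAction.stabilizer (GL (Fin 2) k) (∞ : OnePoint k)).subgroupOf Γ) hidx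
    (fun g => ψ (g : GL (Fin 2) k))
    (fun g h => hψ g g.2 h h.2)
    ⟨m, fun h hh => by
      rw [Subgroup.mem_subgroupOf] at hh
      exact hm h ((Subgroup.mem_inf).2 ⟨h.2, hh⟩)⟩
  exact ⟨m', fun g hg => hm' ⟨g, hg⟩⟩

/-- the main theorem, modulo the inputs `Field.lean` and `PElt.lean` -/
theorem s56hv_main_of (hp2 : p ≠ 2) (hfield : s56hv_FieldStmt k)
    (hP1 : ∀ Γ : Subgroup (GL (Fin 2) k),
      (∀ g ∈ Γ, ∃ α β : k, (g : Matrix (Fin 2) (Fin 2) k).charpoly = (X - C α) * (X - C β)) →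
      p ∣ Nat.card Γ → ∃ (h : GL (Fin 2) k) (x₀ : k), x₀ ≠ 0 ∧ h⁻¹ * upperRightHom x₀ * h ∈ Γ)
    (hP2 : ∀ (Γ : Subgroup (GL (Fin 2) k)) (x₀ : k), x₀ ≠ 0 → upperRightHom x₀ ∈ Γ →
      ((((MulAction.stabilizer (GL (Fin 2) k) (∞ : OnePoint k)).subgroupOf Γ).index : ℕ) : k) ≠ 0)
    (hP3 : ∀ (Γ H : Subgroup (GL (Fin 2) k)), H ≤ Γ → (∀ g ∈ Γ, ∀ h ∈ H, g * h * g⁻¹ ∈ H) →
      ∀ x₀ : k, x₀ ≠ 0 → upperRightHom x₀ ∈ H → ∀ g ∈ Γ,
        ∃ h ∈ H, h • (∞ : OnePoint k) = g • (∞ : OnePoint k))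
    (Γ : Subgroup (GL (Fin 2) k))
    (hsplit : ∀ g ∈ Γ, ∃ α β : k,
      (g : Matrix (Fin 2) (Fin 2) k).charpoly = (X - C α) * (X - C β))
    (hirr : ∀ c : OnePoint k, ∃ g ∈ Γ, g • c ≠ c)
    (hdet5 : p = 5 → ∃ g ∈ Γ, ((g : Matrix (Fin 2) (Fin 2) k).det) ^ 2 ≠ 1)
    (ψ : GL (Fin 2) k → Matrix (Fin 2) (Fin 2) k)
    (htr : ∀ g ∈ Γ, (ψ g).trace = 0)
    (hψ : ∀ g ∈ Γ, ∀ h ∈ Γ, ψ (g * h) = ψ g +
      (g : Matrix (Fin 2) (Fin 2) k) * ψ h * adjugate (g : Matrix (Fin 2) (Fin 2) k)) :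
    ∃ m : Matrix (Fin 2) (Fin 2) k, m.trace = 0 ∧
      ∀ g ∈ Γ, ψ g = (g : Matrix (Fin 2) (Fin 2) k) * m *
        adjugate (g : Matrix (Fin 2) (Fin 2) k) - m := by
  have h2 : (2 : k) ≠ 0 := s56hv_two_ne_zero hp2
  have hψ' : ∀ g ∈ Γ, ∀ h ∈ Γ, ψ (g * h) = ψ g + s56hv_act g (ψ h) := hψ
  suffices h : ∃ m : Matrix (Fin 2) (Fin 2) k, ∀ g ∈ Γ, ψ g = s56hv_act g m - m by
    obtain ⟨m, hm⟩ := h
    exact s56hv_trace_fix h2 Γ ψ htr m hm
  haveI : Finite ↥Γ := inferInstance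
  by_cases hp : p ∣ Nat.card Γ
  · obtain ⟨h, x₀, hx₀, hmem⟩ := hP1 Γ hsplit hp
    -- the conjugate group and cocycle
    have hu₀ : upperRightHom x₀ ∈ s56hv_conjSub Γ h := hmem
    have hsplit' : ∀ g ∈ s56hv_conjSub Γ h, ∃ α β : k,
        (g : Matrix (Fin 2) (Fin 2) k).charpoly = (X - C α) * (X - C β) := by
      intro g hg
      obtain ⟨α, β, hαβ⟩ := hsplit _ hg
      refine ⟨α, β, ?_⟩
      rw [← hαβ, Units.val_mul, Units.val_mul]
      have := Matrix.charpoly_units_conj' h (g : Matrix (Fin 2) (Fin 2) k)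
      rw [← this]
      congr 2
      simp
    have hirr' : ∀ c : OnePoint k, ∃ g ∈ s56hv_conjSub Γ h, g • c ≠ c := by
      intro c
      obtain ⟨g, hg, hne⟩ := hirr (h⁻¹ • c)
      refine ⟨h * g * h⁻¹, ?_, ?_⟩
      · rw [s56hv_mem_conjSub]
        have : h⁻¹ * (h * g * h⁻¹) * h = g := by group
        rw [this]; exact hg
      · intro hc
        apply hne
        rw [mul_smul, mul_smul] at hc
        exact eq_inv_smul_iff.mpr hc
    have hdet5' : p = 5 → ∃ g ∈ s56hv_conjSub Γ h,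
        ((g : Matrix (Fin 2) (Fin 2) k).det) ^ 2 ≠ 1 := by
      intro h5
      obtain ⟨g, hg, hne⟩ := hdet5 h5
      refine ⟨h * g * h⁻¹, ?_, ?_⟩
      · rw [s56hv_mem_conjSub]
        have : h⁻¹ * (h * g * h⁻¹) * h = g := by group
        rw [this]; exact hg
      · have : ((h * g * h⁻¹ : GL (Fin 2) k) : Matrix (Fin 2) (Fin 2) k).det =
            (g : Matrix (Fin 2) (Fin 2) k).det := by
          rw [Units.val_mul, Units.val_mul, Matrix.det_mul, Matrix.det_mul, mul_comm, ← mul_assoc,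
            ← Matrix.det_mul, ← Units.val_mul, inv_mul_cancel, Units.val_one, Matrix.det_one,
            one_mul]
        rw [this]; exact hne
    have htr' : ∀ g ∈ s56hv_conjSub Γ h, (s56hv_act h (ψ (h⁻¹ * g * h))).trace = 0 := by
      intro g hg
      rw [s56hv_act_trace, htr _ hg, mul_zero]
    obtain ⟨m', hm'⟩ := s56hv_core hp2 hfield (s56hv_conjSub Γ h) hsplit' hirr' hdet5' x₀ hx₀ hu₀
      (hP2 _ x₀ hx₀ hu₀)
      (hP3 _ (s56hv_G1 (s56hv_conjSub Γ h)) inf_le_left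
        (fun g hg h' hh' => s56hv_G1_conj _ g hg h' hh') x₀ hx₀
        ((s56hv_u_mem_G1 _ x₀).2 hu₀))
      (fun g => s56hv_act h (ψ (h⁻¹ * g * h))) htr'
      (s56hv_conj_cocycle Γ h ψ hψ')
    exact ⟨_, s56hv_conj_reduce Γ h ψ m' hm'⟩
  · -- order prime to `p`
    have hn : ((Nat.card ↥Γ : ℕ) : k) ≠ 0 := by
      rw [Ne, CharP.cast_eq_zero_iff k p]
      exact hp
    obtain ⟨m, hm⟩ := s56hv_vanish_of_card (s56hv_rep Γ) hn (fun g => ψ (g : GL (Fin 2) k))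
      (fun g h => hψ' g g.2 h h.2)
    exact ⟨m, fun g hg => hm ⟨g, hg⟩⟩

end Main

end Fermat.Agent.S56
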