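/-
S56, node [H1-VAN], cell (P) [PELT] (prefix `s56hf_`, Mathlib + `H1Van/Count.lean`).

* `s56hf_orbit_modEq` : `σ ∈ H` with `σ ^ p = 1` fixing exactly one point `c₀` of a finite `G`-set:
  every `H`-orbit has cardinality `≡ [c₀ ∈ orbit]` mod `p`.
* `s56hf_conj`  (P1) : a subgroup `Γ ≤ GL₂(k)` of order divisible by `p = char k` contains a
  conjugate of some `u(x₀)`, `x₀ ≠ 0`.
* `s56hf_index` (P2) : if `u(x₀) ∈ Γ`, `x₀ ≠ 0`, the index of the stabiliser of `∞` in `Γ` is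
  prime to `p`.
* `s56hf_trans` (P3) : a subgroup `H ≤ Γ` normalised by `Γ` and containing `u(x₀)`, `x₀ ≠ 0`, is
  transitive on `Γ • ∞`.
-/
import Mathlib
import Fermat.Agent.S56.H1Van.Count

set_option autoImplicit false

namespace Fermat.Agent.S56

open Matrix OnePoint Matrix.GeneralLinearGroup

open Classical in
/-- **mod `p` orbit count**: `σ ∈ H`, `σ ^ p = 1`, `σ` fixes exactly the point `c₀`. -/
theorem s56hf_orbit_modEq {G α : Type*} [Group G] [MulAction G α] [Finite α] {p : ℕ}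
    [Fact p.Prime] (H : Subgroup G) (σ : G) (hσH : σ ∈ H) (hσp : σ ^ p = 1) (c₀ : α)
    (hfix : ∀ c : α, σ • c = c ↔ c = c₀) (c : α) :
    Nat.card (MulAction.orbit H c) ≡ (if c₀ ∈ MulAction.orbit H c then 1 else 0) [MOD p] := by
  classical
  set O : Set α := MulAction.orbit H c with hO
  let _ : Fintype ↥O := Fintype.ofFinite _
  have hmem : ∀ x : α, x ∈ O → σ • x ∈ O := by
    intro x hx
    obtain ⟨h, rfl⟩ := MulAction.mem_orbit_iff.mp hx
    exact MulAction.mem_orbit_iff.mpr ⟨⟨σ, hσH⟩ * h, by rw [mul_smul]; rfl⟩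
  let f : Function.End ↥O := fun x => ⟨σ • (x : α), hmem x x.2⟩
  have hpow : ∀ (n : ℕ) (x : ↥O), (((f ^ n) x : ↥O) : α) = σ ^ n • (x : α) := by
    intro n
    induction n with
    | zero => intro x; rw [pow_zero, pow_zero, one_smul]; rfl
    | succ n ih =>
      intro x
      rw [pow_succ', pow_succ', mul_smul, ← ih x]
      rfl
  have hf : f ^ p ^ 1 = 1 := by
    rw [pow_one]
    funext x
    apply Subtype.ext
    rw [hpow, hσp, one_smul]
    rfl
  have h1 := Equiv.Perm.card_fixedPoints_modEq (p := p) (n := 1) hf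
  rw [← Nat.card_eq_fintype_card, ← Nat.card_eq_fintype_card] at h1
  refine h1.trans ?_
  have hfp : ∀ x : ↥O, x ∈ Function.fixedPoints f ↔ (x : α) = c₀ := by
    intro x
    rw [Function.mem_fixedPoints, Function.IsFixedPt, ← hfix]
    exact Subtype.ext_iff
  split_ifs with hc
  · have : Function.fixedPoints f = {⟨c₀, hc⟩} := by
      ext x
      rw [hfp, Set.mem_singleton_iff, Subtype.ext_iff]
    rw [this, Nat.card_coe_set_eq, Set.ncard_singleton]
  · have : Function.fixedPoints f = ∅ := by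
      ext x
      rw [hfp]
      simp only [Set.mem_empty_iff_false, iff_false]
      intro h
      exact hc (h ▸ x.2)
    rw [this, Nat.card_coe_set_eq, Set.ncard_empty]

variable {k : Type*} [Field k]

/-- `u(x)` has order dividing `p` -/
theorem s56hf_u_pow {p : ℕ} [CharP k p] (x : k) : (upperRightHom x : GL (Fin 2) k) ^ p = 1 := by
  rw [← AddChar.map_nsmul_eq_pow, nsmul_eq_mul, CharP.cast_eq_zero, zero_mul,
    AddChar.map_zero_eq_one]

variable [Fintype k] [DecidableEq k]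

/-- `u(x₀)`, `x₀ ≠ 0`, fixes exactly `∞` -/
theorem s56hf_u_fix (x₀ : k) (hx₀ : x₀ ≠ 0) (c : OnePoint k) :
    (upperRightHom x₀ : GL (Fin 2) k) • c = c ↔ c = ∞ := by
  cases c with
  | infty =>
    simp only [iff_true]
    exact smul_infty_eq_self_iff.mpr (by simp)
  | coe t =>
    rw [s56hc_u_smul_coe, OnePoint.coe_eq_coe]
    simp [hx₀]

/-- a conjugate of `u(x₀)` has order dividing `p` and fixes exactly `g • ∞` -/
theorem s56hf_conj_fix (g : GL (Fin 2) k) (x₀ : k) (hx₀ : x₀ ≠ 0) (c : OnePoint k) :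
    (g * upperRightHom x₀ * g⁻¹ : GL (Fin 2) k) • c = c ↔ c = g • (∞ : OnePoint k) := by
  rw [mul_smul, mul_smul, smul_eq_iff_eq_inv_smul, s56hf_u_fix x₀ hx₀, inv_smul_eq_iff]

/-- **(P2)** the index of the stabiliser of `∞` in `Γ` is prime to `p` -/
theorem s56hf_index {p : ℕ} [Fact p.Prime] [CharP k p] (Γ : Subgroup (GL (Fin 2) k)) (x₀ : k) (hx₀ : x₀ ≠ 0)
    (hu : upperRightHom x₀ ∈ Γ) :
    ((((MulAction.stabilizer (GL (Fin 2) k) (∞ : OnePoint k)).subgroupOf Γ).index : ℕ) : k)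
      ≠ 0 := by
  have hst : (MulAction.stabilizer (GL (Fin 2) k) (∞ : OnePoint k)).subgroupOf Γ =
      MulAction.stabilizer ↥Γ (∞ : OnePoint k) := by
    ext g
    rw [Subgroup.mem_subgroupOf, MulAction.mem_stabilizer_iff, MulAction.mem_stabilizer_iff]
    rfl
  rw [hst, MulAction.index_stabilizer, ← Nat.card_coe_set_eq]
  have h1 := s56hf_orbit_modEq (p := p) Γ (upperRightHom x₀ : GL (Fin 2) k) hu (s56hf_u_pow (p := p) x₀)
    (∞ : OnePoint k) (s56hf_u_fix x₀ hx₀) ∞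
  rw [if_pos (MulAction.mem_orbit_self _)] at h1
  have h2 := (CharP.natCast_eq_natCast k p).mpr h1
  rw [h2, Nat.cast_one]
  exact one_ne_zero

/-- **(P3)** `H ≤ Γ` normalised by `Γ`, `u(x₀) ∈ H`: `H` is transitive on `Γ • ∞` -/
theorem s56hf_trans {p : ℕ} [Fact p.Prime] [CharP k p] (Γ H : Subgroup (GL (Fin 2) k)) (hHΓ : H ≤ Γ)
    (hnorm : ∀ g ∈ Γ, ∀ h ∈ H, g * h * g⁻¹ ∈ H) (x₀ : k) (hx₀ : x₀ ≠ 0)
    (hu : upperRightHom x₀ ∈ H) (g : GL (Fin 2) k) (hg : g ∈ Γ) :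
    ∃ h ∈ H, h • (∞ : OnePoint k) = g • (∞ : OnePoint k) := by
  have _ := hHΓ
  set c : OnePoint k := g • (∞ : OnePoint k) with hc
  have h1 := s56hf_orbit_modEq (p := p) H (g * upperRightHom x₀ * g⁻¹ : GL (Fin 2) k)
    (hnorm g hg _ hu) (by rw [conj_pow, s56hf_u_pow (p := p), mul_one, mul_inv_cancel]) c
    (s56hf_conj_fix g x₀ hx₀) c
  rw [if_pos (MulAction.mem_orbit_self _)] at h1
  have h2 := s56hf_orbit_modEq (p := p) H (upperRightHom x₀ : GL (Fin 2) k) hu (s56hf_u_pow (p := p) x₀)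
    (∞ : OnePoint k) (s56hf_u_fix x₀ hx₀) c
  by_cases hmem : (∞ : OnePoint k) ∈ MulAction.orbit H c
  · obtain ⟨h, hh⟩ := hmem
    refine ⟨(h : GL (Fin 2) k)⁻¹, H.inv_mem h.2, ?_⟩
    rw [inv_smul_eq_iff]
    exact hh.symm
  · exfalso
    rw [if_neg hmem] at h2
    have h3 : 1 ≡ 0 [MOD p] := h1.symm.trans h2
    have h4 : p ∣ 1 := (Nat.modEq_zero_iff_dvd.mp h3)
    exact (Fact.out : p.Prime).one_lt.ne' (Nat.dvd_one.mp h4)

/-- **(P1)** a subgroup of `GL₂(k)` of order divisible by `p` contains a conjugate of some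
`u(x₀)`, `x₀ ≠ 0` -/
theorem s56hf_conj {p : ℕ} [Fact p.Prime] [CharP k p] (Γ : Subgroup (GL (Fin 2) k))
    (hsplit : ∀ g ∈ Γ, ∃ α β : k, (g : Matrix (Fin 2) (Fin 2) k).charpoly =
      (Polynomial.X - Polynomial.C α) * (Polynomial.X - Polynomial.C β))
    (hp : p ∣ Nat.card Γ) :
    ∃ (h : GL (Fin 2) k) (x₀ : k), x₀ ≠ 0 ∧ h⁻¹ * upperRightHom x₀ * h ∈ Γ := by
  obtain ⟨γ, hγ⟩ := exists_prime_orderOf_dvd_card' p hp
  have hγp : (γ : GL (Fin 2) k) ^ p = 1 := by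
    have := pow_orderOf_eq_one γ
    rw [hγ] at this
    exact_mod_cast congrArg Subtype.val this
  have hγ1 : (γ : GL (Fin 2) k) ≠ 1 := by
    intro h
    have : γ = 1 := Subtype.ext h
    rw [this, orderOf_one] at hγ
    exact (Fact.out : p.Prime).one_lt.ne hγ
  obtain ⟨α, β, hαβ⟩ := hsplit γ γ.2
  obtain ⟨c, hc⟩ := s56hc_fix_of_split (γ : GL (Fin 2) k) α β hαβ
  obtain ⟨h, hh⟩ := s56hc_exists_to_infty c
  set g' : GL (Fin 2) k := h * γ * h⁻¹ with hg'
  have hfix' : g' • (∞ : OnePoint k) = ∞ := by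
    rw [hg', mul_smul, mul_smul, ← hh, inv_smul_smul, hc]
  have h10 : g' 1 0 = 0 := smul_infty_eq_self_iff.mp hfix'
  have hg'p : g' ^ p = 1 := by rw [hg', conj_pow, hγp, mul_one, mul_inv_cancel]
  -- the diagonal entries of a power of an upper triangular matrix
  have hdiag : ∀ n : ℕ, ((g' ^ n : GL (Fin 2) k) : Matrix (Fin 2) (Fin 2) k) 1 0 = 0 ∧
      ((g' ^ n : GL (Fin 2) k) : Matrix (Fin 2) (Fin 2) k) 0 0 = (g' 0 0) ^ n ∧
      ((g' ^ n : GL (Fin 2) k) : Matrix (Fin 2) (Fin 2) k) 1 1 = (g' 1 1) ^ n := by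
    intro n
    induction n with
    | zero => simp
    | succ n ih =>
      obtain ⟨i1, i2, i3⟩ := ih
      rw [pow_succ]
      simp only [Units.val_mul, Matrix.mul_apply, Fin.sum_univ_two]
      rw [i1, i2, i3, h10]
      refine ⟨by ring, by ring, by ring⟩
  have hone : ∀ a : k, a ^ p = 1 → a = 1 := by
    intro a ha
    have : (a - 1) ^ p = 0 := by rw [sub_pow_char, ha, one_pow, sub_self]
    exact sub_eq_zero.mp (pow_eq_zero_iff (Fact.out : p.Prime).ne_zero |>.mp this)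
  obtain ⟨-, d0, d1⟩ := hdiag p
  rw [hg'p] at d0 d1
  have h00 : g' 0 0 = 1 := hone _ (by rw [← d0]; simp)
  have h11 : g' 1 1 = 1 := hone _ (by rw [← d1]; simp)
  have hg'u : g' = upperRightHom (g' 0 1) := by
    apply Units.ext
    ext i j
    fin_cases i <;> fin_cases j <;> simp [h00, h11, h10]
  refine ⟨h, g' 0 1, ?_, ?_⟩
  · intro h0
    apply hγ1
    have : g' = 1 := by rw [hg'u, h0, AddChar.map_zero_eq_one]
    rw [hg'] at this
    have h2 : (γ : GL (Fin 2) k) = h⁻¹ * (h * γ * h⁻¹) * h := by group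
    rw [h2, this, mul_one, inv_mul_cancel]
  · rw [← hg'u, hg']
    have h2 : h⁻¹ * (h * (γ : GL (Fin 2) k) * h⁻¹) * h = γ := by group
    rw [h2]
    exact γ.2

end Fermat.Agent.S56
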