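/-
S56 / node [H1-VAN] (helper10 + helper12), the main theorem.  Prefix `s56hv_`.  Mathlib only
(through `Coh`, `Borel`, `Count(Abs)`, `Field`, `PElt`, `Final`).

`s56hv_main` : `k` a finite field of odd characteristic `p`, `Γ ≤ GL₂(k)` such that all elements have
their eigenvalues in `k`, `Γ` fixes no point of `ℙ¹(k) = OnePoint k` (no stable line), and for `p = 5`
some element of `Γ` has determinant `≠ ±1`.  Then every 1-cocycle of `Γ` with values in the trace-zero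
matrices for the action `g · A = g A adj(g)` (`= det(g) g A g⁻¹`, the module `ad⁰ ⊗ det`) is a
coboundary.  No classification of the subgroups of `GL₂(k)` is used.
-/
import Mathlib
import Fermat.Agent.S56.H1Van.Final
import Fermat.Agent.S56.H1Van.Field
import Fermat.Agent.S56.H1Van.PElt

set_option autoImplicit false

namespace Fermat.Agent.S56

open Matrix OnePoint Matrix.GeneralLinearGroup Polynomial

/-- **[H1-VAN]** : `H¹(Γ, ad⁰ ⊗ det) = 0`. -/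
theorem s56hv_main {k : Type*} [Field k] [Fintype k] [DecidableEq k] {p : ℕ} [Fact p.Prime]
    [CharP k p] (hp2 : p ≠ 2) (Γ : Subgroup (GL (Fin 2) k))
    (hsplit : ∀ g ∈ Γ, ∃ α β : k,
      (g : Matrix (Fin 2) (Fin 2) k).charpoly = (X - C α) * (X - C β))
    (hirr : ∀ c : OnePoint k, ∃ g ∈ Γ, g • c ≠ c)
    (hdet5 : p = 5 → ∃ g ∈ Γ, ((g : Matrix (Fin 2) (Fin 2) k).det) ^ 2 ≠ 1)
    (ψ : GL (Fin 2) k → Matrix (Fin 2) (Fin 2) k)
    (htr : ∀ g ∈ Γ, (ψ g).trace = 0)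
    (hψ : ∀ g ∈ Γ, ∀ h ∈ Γ, ψ (g * h) = ψ g +
      (g : Matrix (Fin 2) (Fin 2) k) * ψ h * adjugate (g : Matrix (Fin 2) (Fin 2) k)) :
    ∃ m : Matrix (Fin 2) (Fin 2) k, m.trace = 0 ∧
      ∀ g ∈ Γ, ψ g = (g : Matrix (Fin 2) (Fin 2) k) * m *
        adjugate (g : Matrix (Fin 2) (Fin 2) k) - m :=
  s56hv_main_of hp2
    (fun X L hX0 hXadd hL1 hLmul hL0 hLX x₀ hx₀ hx₀X hcount A hadd hequiv =>
      s56hf_main X L hX0 hXadd hL1 hLmul hL0 hLX x₀ hx₀ hx₀X hcount A hadd hequiv)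
    (fun Γ hs hp => s56hf_conj Γ hs hp)
    (fun Γ x₀ hx₀ hu => s56hf_index Γ x₀ hx₀ hu)
    (fun Γ H hHΓ hnorm x₀ hx₀ hu g hg => s56hf_trans Γ H hHΓ hnorm x₀ hx₀ hu g hg)
    Γ hsplit hirr hdet5 ψ htr hψ

end Fermat.Agent.S56
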