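/-
S56 / node [H1-VAN] (helper10): the bridge from `s56hv_main` (subgroups of `GL₂(k)`) to the input
Prop `s56g_H1Van rb` of helper24's selection step (`Grp/Select.lean`), for a framed residual
representation `rb : S53.FramedResidual k`.  Prefix `s56hv_`.
-/
import Mathlib
import Fermat.Agent.S56.H1Van.Main
import Fermat.Agent.S56.Grp.Select

set_option autoImplicit false
set_option linter.style.haveILetI false
set_option linter.unusedSectionVars false
set_option linter.unusedVariables false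

namespace Fermat.Agent.S56

open Matrix OnePoint Matrix.GeneralLinearGroup Polynomial TensorProduct

local notation "GQ" => (AlgebraicClosure ℚ ≃ₐ[ℚ] AlgebraicClosure ℚ)

variable {k : Type} [Field k] (rb : Fermat.Agent.S53.FramedResidual k)

/-- `rb` as a homomorphism to `GL₂(k)` -/
noncomputable def s56hv_toGL : GQ →* GL (Fin 2) k := rb.toMonoidHom.toHomUnits

theorem s56hv_toGL_coe (g : GQ) :
    ((s56hv_toGL rb g : GL (Fin 2) k) : Matrix (Fin 2) (Fin 2) k) = rb g := rfl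

theorem s56hv_tw_eq_act (g : GQ) (A : Matrix (Fin 2) (Fin 2) k) :
    s56g_twRep rb g A = s56hv_act (s56hv_toGL rb g) A := by
  rw [s56g_twRep_apply, s56hv_act, s56hv_toGL_coe]
  have : adjugate (rb g) = (rb g).det • rb g⁻¹ := by
    calc adjugate (rb g) = adjugate (rb g) * (rb g * rb g⁻¹) := by
          rw [s56g_fr_mul_inv, Matrix.mul_one]
      _ = (adjugate (rb g) * rb g) * rb g⁻¹ := by rw [Matrix.mul_assoc]
      _ = (rb g).det • rb g⁻¹ := by rw [adjugate_mul, Matrix.smul_mul, Matrix.one_mul]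
  rw [this, Matrix.mul_smul]

/-- absolute irreducibility excludes a common eigenvector over `k` -/
theorem s56hv_no_eigvec (habs : rb.toResidualGaloisRep.IsAbsolutelyIrreducible)
    (v : Fin 2 → k) (hv : v ≠ 0) (h : ∀ σ : GQ, ∃ c : k, (rb σ).mulVec v = c • v) : False := by
  have hirr := s56g_res_irr_top rb.toResidualGaloisRep habs
  have hne : ((1 : AlgebraicClosure k) ⊗ₜ[k] v : AlgebraicClosure k ⊗[k] (Fin 2 → k)) ≠ 0 := by
    rw [Ne, Module.FaithfullyFlat.one_tmul_eq_zero_iff]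
    exact hv
  have key : ∀ (σ : GQ) (c : k), (rb σ).mulVec v = c • v →
      (LinearMap.baseChange (AlgebraicClosure k) (Matrix.toLin' (rb σ)))
        ((1 : AlgebraicClosure k) ⊗ₜ[k] v) =
        algebraMap k (AlgebraicClosure k) c • ((1 : AlgebraicClosure k) ⊗ₜ[k] v) := by
    intro σ c hc
    rw [LinearMap.baseChange_tmul, Matrix.toLin'_apply, hc, TensorProduct.tmul_smul,
      algebraMap_smul]
  refine s56g_no_common_eigenvector
    (ρ := (rb.toResidualGaloisRep.baseChange (AlgebraicClosure k)).ρ)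
    (rb.toResidualGaloisRep.baseChange (AlgebraicClosure k)).finrank_eq hirr
    (v := ((1 : AlgebraicClosure k) ⊗ₜ[k] v : AlgebraicClosure k ⊗[k] (Fin 2 → k))) hne ?_
  intro σ _
  obtain ⟨c, hc⟩ := h σ
  exact ⟨algebraMap k (AlgebraicClosure k) c, key σ c hc⟩

/-- a point of `ℙ¹(k)` fixed by the whole image gives a common eigenvector -/
theorem s56hv_eigvec_of_fix [Fintype k] [DecidableEq k] (c : OnePoint k)
    (hc : ∀ g : GQ, s56hv_toGL rb g • c = c) :
    ∃ v : Fin 2 → k, v ≠ 0 ∧ ∀ σ : GQ, ∃ a : k, (rb σ).mulVec v = a • v := by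
  obtain ⟨h, hh⟩ := s56hc_exists_to_infty c
  obtain ⟨e, he⟩ : ∃ e : Fin 2 → k, e = ![1, 0] := ⟨_, rfl⟩
  have he0 : e ≠ 0 := by
    intro h0
    have := congrFun h0 0
    rw [he] at this
    simp at this
  refine ⟨(h⁻¹ : GL (Fin 2) k).val.mulVec e, ?_, fun σ => ?_⟩
  · intro h0
    apply he0
    have := congrArg (fun w => (h : GL (Fin 2) k).val.mulVec w) h0
    simp only [Matrix.mulVec_mulVec, Matrix.mulVec_zero] at this
    rw [← Units.val_mul, mul_inv_cancel, Units.val_one, Matrix.one_mulVec] at this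
    exact this
  · obtain ⟨M, hM⟩ : ∃ M : GL (Fin 2) k, M = h * s56hv_toGL rb σ * h⁻¹ := ⟨_, rfl⟩
    have hfix : M • (∞ : OnePoint k) = ∞ := by
      rw [hM, mul_smul, mul_smul, ← hh, inv_smul_smul, hc σ]
    have h10 : M 1 0 = 0 := smul_infty_eq_self_iff.mp hfix
    have hMe : M.val.mulVec e = M 0 0 • e := by
      rw [he]
      ext i
      fin_cases i
      · simp [Matrix.mulVec, dotProduct, Fin.sum_univ_two]
      · simp [Matrix.mulVec, dotProduct, Fin.sum_univ_two, h10]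
    refine ⟨M 0 0, ?_⟩
    have hcomm : rb σ * (h⁻¹ : GL (Fin 2) k).val = (h⁻¹ : GL (Fin 2) k).val * M.val := by
      rw [hM, Units.val_mul, Units.val_mul, ← Matrix.mul_assoc, ← Matrix.mul_assoc,
        ← Units.val_mul, inv_mul_cancel, Units.val_one, Matrix.one_mul, s56hv_toGL_coe]
    rw [Matrix.mulVec_mulVec, hcomm, ← Matrix.mulVec_mulVec, hMe, Matrix.mulVec_smul]

/-- **[H1-VAN]** in the vocabulary of `Grp/Select.lean` -/
theorem s56hv_H1Van [Finite k] {p : ℕ} [Fact p.Prime] [CharP k p] (hp2 : p ≠ 2)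
    (habs : rb.toResidualGaloisRep.IsAbsolutelyIrreducible)
    (hsplit : ∀ σ : GQ, ∃ α β : k, (rb σ).charpoly = (X - C α) * (X - C β))
    (hdet5 : p = 5 → ∃ σ : GQ, ((rb σ).det) ^ 2 ≠ 1) : s56g_H1Van rb := by
  classical
  haveI : Fintype k := Fintype.ofFinite k
  intro ψ htr hψ hker
  -- `ψ` depends only on the image in `GL₂(k)`
  have hwd : ∀ g g' : GQ, s56hv_toGL rb g = s56hv_toGL rb g' → ψ g = ψ g' := by
    intro g g' hgg
    have hx : rb (g⁻¹ * g') = 1 := by
      have : s56hv_toGL rb (g⁻¹ * g') = 1 := by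
        rw [map_mul, map_inv, hgg, inv_mul_cancel]
      have h2 := congrArg (fun u : GL (Fin 2) k => (u : Matrix (Fin 2) (Fin 2) k)) this
      exact h2
    have h1 := hψ g (g⁻¹ * g')
    rw [mul_inv_cancel_left, hker _ hx, map_zero, add_zero] at h1
    exact h1.symm
  obtain ⟨ψ', hψ'def⟩ : ∃ ψ' : GL (Fin 2) k → Matrix (Fin 2) (Fin 2) k,
      ψ' = fun γ => if h : ∃ g, s56hv_toGL rb g = γ then ψ h.choose else 0 := ⟨_, rfl⟩
  have hψ'ρ : ∀ g, ψ' (s56hv_toGL rb g) = ψ g := by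
    intro g
    have h : ∃ g', s56hv_toGL rb g' = s56hv_toGL rb g := ⟨g, rfl⟩
    rw [hψ'def]
    simp only [dif_pos h]
    exact hwd _ _ h.choose_spec
  obtain ⟨m, hm0, hm⟩ := s56hv_main hp2 (s56hv_toGL rb).range
    (by
      rintro _ ⟨σ, rfl⟩
      exact hsplit σ)
    (by
      by_contra hcon
      push Not at hcon
      obtain ⟨c, hc⟩ := hcon
      obtain ⟨v, hv, hev⟩ := s56hv_eigvec_of_fix rb c (fun g => hc _ ⟨g, rfl⟩)
      exact s56hv_no_eigvec rb habs v hv hev)
    (by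
      intro h5
      obtain ⟨σ, hσ⟩ := hdet5 h5
      exact ⟨_, ⟨σ, rfl⟩, hσ⟩)
    ψ'
    (by
      rintro _ ⟨σ, rfl⟩
      rw [hψ'ρ]; exact htr σ)
    (by
      rintro _ ⟨σ, rfl⟩ _ ⟨τ, rfl⟩
      rw [← map_mul, hψ'ρ, hψ'ρ, hψ'ρ, hψ σ τ, s56hv_tw_eq_act]
      rfl)
  refine ⟨m, hm0, fun g => ?_⟩
  rw [← hψ'ρ g, hm _ ⟨g, rfl⟩, s56hv_tw_eq_act]
  rfl

end Fermat.Agent.S56
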