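/-
S56 / node [H1-VAN] (helper10): the determinant hypothesis `hdet5` of `s56hv_H1Van` from the frozen
`DetIsCyclotomic`, via the surjectivity of the mod `n` cyclotomic character of `G_ℚ`.  Prefix `s56hv_`.
-/
import Mathlib
import Fermat.Agent.S56.H1Van.Bridge
import Fermat.Prelude.Def_GaloisRep_LocalConditions

set_option autoImplicit false
set_option linter.style.haveILetI false
set_option linter.unusedSectionVars false
set_option linter.unusedVariables false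

namespace Fermat.Agent.S56

open Polynomial IntermediateField

local notation "GQ" => (AlgebraicClosure ℚ ≃ₐ[ℚ] AlgebraicClosure ℚ)

/-- **the mod `n` cyclotomic character of `G_ℚ` is onto** -/
theorem s56hv_exists_cyc_sigma (n : ℕ) [NeZero n] (a : ℕ) (ha : a.Coprime n) :
    ∃ σ : GQ, ∀ μ : AlgebraicClosure ℚ, μ ^ n = 1 → σ μ = μ ^ a := by
  obtain ⟨ζ, hζ⟩ := HasEnoughRootsOfUnity.exists_primitiveRoot (AlgebraicClosure ℚ) n
  haveI : IsAlgClosure ℚ (AlgebraicClosure ℚ) := ⟨inferInstance, AlgebraicClosure.isAlgebraic ℚ⟩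
  haveI : Normal ℚ (AlgebraicClosure ℚ) := IsAlgClosure.normal ℚ (AlgebraicClosure ℚ)
  haveI : Algebra.IsAlgebraic ℚ (AlgebraicClosure ℚ) := AlgebraicClosure.isAlgebraic ℚ
  haveI : Algebra.IsIntegral ℚ (AlgebraicClosure ℚ) := Algebra.IsAlgebraic.isIntegral
  haveI : IsCyclotomicExtension {n} ℚ ↥ℚ⟮ζ⟯ :=
    hζ.intermediateField_adjoin_isCyclotomicExtension ℚ
  have hirr : Irreducible (cyclotomic n ℚ) := cyclotomic.irreducible_rat (NeZero.pos n)
  -- the automorphism of `ℚ(ζ)` with exponent `a`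
  obtain ⟨τ, hτ⟩ : ∃ τ : ↥ℚ⟮ζ⟯ ≃ₐ[ℚ] ↥ℚ⟮ζ⟯,
      IsCyclotomicExtension.autEquivPow ↥ℚ⟮ζ⟯ hirr τ = ZMod.unitOfCoprime a ha :=
    (IsCyclotomicExtension.autEquivPow ↥ℚ⟮ζ⟯ hirr).surjective _
  -- its action on the chosen primitive root of `ℚ(ζ)`
  have hz := IsCyclotomicExtension.zeta_spec n ℚ ↥ℚ⟮ζ⟯
  have hτz : τ (IsCyclotomicExtension.zeta n ℚ ↥ℚ⟮ζ⟯) =
      (IsCyclotomicExtension.zeta n ℚ ↥ℚ⟮ζ⟯) ^ a := by
    have h1 := hz.autToPow_spec ℚ τ
    have h2 : IsCyclotomicExtension.autEquivPow ↥ℚ⟮ζ⟯ hirr τ = hz.autToPow ℚ τ := rfl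
    rw [← h2, hτ, ZMod.coe_unitOfCoprime, ZMod.val_natCast] at h1
    rw [← h1]
    exact (pow_eq_pow_mod a hz.pow_eq_one).symm
  -- lift to `G_ℚ`
  refine ⟨τ.liftNormal (AlgebraicClosure ℚ), fun μ hμ => ?_⟩
  -- the image of `zeta` in `ℚ̄` is a primitive root
  have hz' : IsPrimitiveRoot (algebraMap ↥ℚ⟮ζ⟯ (AlgebraicClosure ℚ)
      (IsCyclotomicExtension.zeta n ℚ ↥ℚ⟮ζ⟯)) n :=
    hz.map_of_injective (algebraMap ↥ℚ⟮ζ⟯ (AlgebraicClosure ℚ)).injective
  obtain ⟨i, -, hi⟩ := hz'.eq_pow_of_pow_eq_one hμ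
  rw [← hi, map_pow, AlgEquiv.liftNormal_commutes, hτz, map_pow, ← pow_mul, ← pow_mul, mul_comm]

/-- the hypothesis `hdet5` of `s56hv_H1Van` from the frozen `DetIsCyclotomic` -/
theorem s56hv_hdet5 {k : Type} [Field k] (rb : Fermat.Agent.S53.FramedResidual k) (p : ℕ)
    [Fact p.Prime]
    (hdet : (GaloisRepAdic.ofResidualGaloisRep rb.toResidualGaloisRep).DetIsCyclotomic p) :
    p = 5 → ∃ σ : GQ, ((rb σ).det) ^ 2 ≠ 1 := by
  intro h5
  subst h5
  obtain ⟨hpk, h⟩ := hdet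
  have hp0 : ((5 : ℕ) : k) = 0 := by
    have : ((5 : ℕ) : k) ∈ IsLocalRing.maximalIdeal k := hpk
    rwa [IsLocalRing.maximalIdeal_eq_bot, Ideal.mem_bot] at this
  obtain ⟨σ, hσ⟩ := s56hv_exists_cyc_sigma 5 2 (by norm_num)
  have h1 := h 1 σ 2 (fun μ hμ => by rw [pow_one] at hμ; exact hσ μ hμ)
  rw [pow_one, hp0, Ideal.span_singleton_zero, Ideal.mem_bot, sub_eq_zero] at h1
  have h2 : LinearMap.det (Matrix.toLin' (rb σ)) = (rb σ).det := LinearMap.det_toLin' _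
  have h3 : (rb σ).det = ((2 : ℕ) : k) := by
    rw [← h2]
    exact h1
  refine ⟨σ, ?_⟩
  rw [h3]
  intro h4
  have e5 : (5 : k) = 0 := by exact_mod_cast hp0
  have e3 : (3 : k) = 0 := by
    push_cast at h4
    linear_combination h4
  have : (1 : k) = 0 := by linear_combination 2 * e3 - e5
  exact one_ne_zero this

/-- **[H1-VAN]** with the frozen determinant hypothesis -/
theorem s56hv_H1Van' {k : Type} [Field k] (rb : Fermat.Agent.S53.FramedResidual k) [Finite k]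
    {p : ℕ} [Fact p.Prime] [CharP k p] (hp2 : p ≠ 2)
    (habs : rb.toResidualGaloisRep.IsAbsolutelyIrreducible)
    (hdet : (GaloisRepAdic.ofResidualGaloisRep rb.toResidualGaloisRep).DetIsCyclotomic p)
    (hsplit : ∀ σ : GQ, ∃ α β : k, (rb σ).charpoly = (X - C α) * (X - C β)) :
    s56g_H1Van rb :=
  s56hv_H1Van rb hp2 habs hsplit (s56hv_hdet5 rb p hdet)

end Fermat.Agent.S56
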