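/-
S56 / node [H1-VAN] (helper10): the input of the Chebotarev seam in the architect's vocabulary, and
the seam itself:  `s56hv_cheb : s56a_Cheb_stmt` (= helper15's `s56ce_cheb` fed with `s56hv_final`).
Prefix `s56hv_`.
-/
import Mathlib
import Fermat.Agent.S56.H1Van.Det5
import Fermat.Agent.S56.ChebEl.Final

set_option autoImplicit false
set_option linter.style.haveILetI false

namespace Fermat.Agent.S56

open Polynomial Fermat.Agent.S53

/-- **[H1-VAN]** from the frozen hypotheses `s56a_Hyp`. -/
theorem s56hv_final (p : ℕ) [Fact p.Prime] (hp2 : p ≠ 2) (k : Type) [Field k] [Finite k]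
    [Algebra (ZMod p) k] (rb : FramedResidual k) (hyp : s56a_Hyp p rb.toResidualGaloisRep) :
    s56g_H1Van rb := by
  haveI : CharP k p := charP_of_injective_algebraMap (algebraMap (ZMod p) k).injective p
  refine s56hv_H1Van' rb hp2 hyp.habs hyp.hdet (fun σ => ?_)
  obtain ⟨α, β, h⟩ := hyp.hsplit σ
  exact ⟨α, β, by rw [← s56g_fr_charpoly]; exact h⟩

/-- **the Chebotarev seam of [ASM]** (seam 7 of ruling #4), no hypothesis left. -/
theorem s56hv_cheb : s56a_Cheb_stmt :=
  s56ce_cheb (fun p _ hp2 k _ _ _ rb hyp => s56hv_final p hp2 k rb hyp)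

end Fermat.Agent.S56
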